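import Mathlib

/-!
# S14 / STK (Jacobi sums): leaf statements as exact Lean propositions (helper26, STK coordinator)

`K = ℚ(ζ_p)`, `Q` a prime of `𝓞 K` of degree one above `q ≠ p` (so `q ≡ 1 mod p`),
`F = 𝓞 K ⧸ Q`, `k = (q - 1) / p`, `χ : F → 𝓞 K` the character with `χ x ≡ x ^ k mod Q`,
`J = jacobiSum χ χ`.  Deliverable: `(J) = ∏_{a=1}^{(p-1)/2} σ_a⁻¹ Q`.

All standing hypotheses are bundled in the `Prop`-structure `Setting`, so that every leaf is a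
closed proposition in `p K Q q`.  The leaves about Jacobi sums are stated for an ARBITRARY
instance `[Fintype (𝓞 K ⧸ Q)]` (needed by Mathlib's `jacobiSum`); the deliverable `StStk` does
not mention it.
-/

set_option autoImplicit false

open NumberField

noncomputable section

namespace Fermat.Agent.S14x.Stk

variable (p : ℕ) (K : Type) [Field K] [NumberField K] (Q : Ideal (𝓞 K)) (q : ℕ)

/-- The standing hypotheses of STK: `p ≥ 3` prime, `K = ℚ(ζ_p)`, `Q` a maximal ideal of `𝓞 K`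
with residue field of prime cardinality `q ≠ p`. -/
structure Setting : Prop where
  hp : p.Prime
  hp3 : 3 ≤ p
  cyc : IsCyclotomicExtension {p} ℚ K
  max : Q.IsMaximal
  hq : q.Prime
  hqp : q ≠ p
  card : Nat.card (𝓞 K ⧸ Q) = q

/-- The restriction of `τ ∈ Gal(K/ℚ)` to `𝓞 K`. -/
abbrev resO (τ : K ≃ₐ[ℚ] K) : 𝓞 K ≃ₐ[ℤ] 𝓞 K := galRestrict ℤ ℚ K (𝓞 K) τ

/-- `χ` is a residue character of exponent `k = (q - 1) / p` at `Q`: it has order `p` and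
`χ x ≡ x ^ k mod Q`. -/
def IsResChar (χ : MulChar (𝓞 K ⧸ Q) (𝓞 K)) : Prop :=
  orderOf χ = p ∧ ∀ x : 𝓞 K ⧸ Q, Ideal.Quotient.mk Q (χ x) = x ^ ((q - 1) / p)

/-- [STK-1a] existence of the residue character. -/
def StChar : Prop :=
  Setting p K Q q → ∃ χ : MulChar (𝓞 K ⧸ Q) (𝓞 K), IsResChar p K Q q χ

/-- [STK-1b] the congruence `J(χ^a, χ^b) ≡ 0 mod Q` for `a, b ≥ 1`, `a + b < p`. -/
def StCong : Prop :=
  Setting p K Q q → ∀ [Fintype (𝓞 K ⧸ Q)] (χ : MulChar (𝓞 K ⧸ Q) (𝓞 K)),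
    IsResChar p K Q q χ →
      ∀ a b : ℕ, 0 < a → 0 < b → a + b < p → jacobiSum (χ ^ a) (χ ^ b) ∈ Q

/-- [STK-2a] Galois action on Jacobi sums: `τ ζ = ζ ^ a ⟹ τ J(χ, χ) = J(χ^a, χ^a)`. -/
def StGal : Prop :=
  Setting p K Q q → ∀ [Fintype (𝓞 K ⧸ Q)] (χ : MulChar (𝓞 K ⧸ Q) (𝓞 K)), χ ^ p = 1 →
    ∀ (τ : K ≃ₐ[ℚ] K) (a : ℕ) (ζ : K), IsPrimitiveRoot ζ p → τ ζ = ζ ^ a →
      resO K τ (jacobiSum χ χ) = jacobiSum (χ ^ a) (χ ^ a)

/-- [STK-2b] the conjugates of `Q` are pairwise distinct. -/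
def StDist : Prop :=
  Setting p K Q q → ∀ τ τ' : K ≃ₐ[ℚ] K,
    Ideal.comap (resO K τ) Q = Ideal.comap (resO K τ') Q → τ = τ'

/-- [STK-3a] the norm of the Jacobi sum. -/
def StNorm : Prop :=
  Setting p K Q q → ∀ [Fintype (𝓞 K ⧸ Q)] (χ : MulChar (𝓞 K ⧸ Q) (𝓞 K)),
    IsResChar p K Q q χ →
      Ideal.absNorm (Ideal.span {jacobiSum χ χ}) = q ^ ((p - 1) / 2)

/-- **Deliverable of STK** (comap form): `(J) = ∏_{a=1}^{(p-1)/2} σ_a⁻¹ Q`, for any family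
`τ a ∈ Gal(K/ℚ)` with `τ a ζ = ζ ^ a`. -/
def StStk : Prop :=
  Setting p K Q q → ∀ τ : ℕ → (K ≃ₐ[ℚ] K),
    (∀ a ∈ Finset.Icc 1 ((p - 1) / 2), ∀ ζ : K, IsPrimitiveRoot ζ p → τ a ζ = ζ ^ a) →
    ∃ J : 𝓞 K, J ≠ 0 ∧
      Ideal.span {J} = ∏ a ∈ Finset.Icc 1 ((p - 1) / 2), Ideal.comap (resO K (τ a)) Q

/-- **Assembly of STK** ([STK-3b]). -/
def StStkAsm : Prop :=
  StChar p K Q q → StCong p K Q q → StGal p K Q q → StDist p K Q q → StNorm p K Q q →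
    StStk p K Q q

end Fermat.Agent.S14x.Stk
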