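import Mathlib

/-!
# S14 / STK (helper21): finite field preliminaries for Jacobi sums

* `sum_pow_mul_one_sub_pow_eq_zero` : in a finite field with `q` elements,
  `∑ x, x ^ m * (1 - x) ^ m = 0` as soon as `2 * m < q - 1`;
* `exists_natCast_sub_mem` : if `R ⧸ Q` has prime cardinality then every element of `R` is
  congruent to a natural number modulo `Q`.
-/

set_option autoImplicit false
set_option linter.style.haveILetI false

namespace Fermat.Agent.S14x.Stk

open Finset

section FiniteField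

variable {F : Type*} [Field F] [Fintype F]

/-- `∑_{x ∈ F} x^m (1 - x)^n = 0` if `m + n < #F - 1`. -/
theorem sum_pow_mul_one_sub_pow_eq_zero' (m n : ℕ) (h : m + n < Fintype.card F - 1) :
    ∑ x : F, x ^ m * (1 - x) ^ n = 0 := by
  have hexp : ∀ x : F, x ^ m * (1 - x) ^ n =
      ∑ j ∈ range (n + 1), ((-1 : F) ^ j * (n.choose j : F)) * x ^ (m + j) := by
    intro x
    have h1 : (1 - x) ^ n = ∑ j ∈ range (n + 1), (-x) ^ j * 1 ^ (n - j) * (n.choose j : F) := by
      rw [sub_eq_neg_add, add_pow]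
    rw [h1, mul_sum]
    refine sum_congr rfl fun j _ => ?_
    rw [one_pow, mul_one, neg_pow, pow_add]
    ring
  simp_rw [hexp]
  rw [sum_comm]
  refine sum_eq_zero fun j hj => ?_
  rw [← mul_sum]
  have hj' : j ≤ n := Nat.lt_succ_iff.mp (mem_range.mp hj)
  rw [FiniteField.sum_pow_lt_card_sub_one F (m + j) (by omega),
    mul_zero]

/-- `∑_{x ∈ F} x^m (1 - x)^m = 0` if `2 m < #F - 1`. -/
theorem sum_pow_mul_one_sub_pow_eq_zero (m : ℕ) (h : 2 * m < Fintype.card F - 1) :
    ∑ x : F, x ^ m * (1 - x) ^ m = 0 :=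
  sum_pow_mul_one_sub_pow_eq_zero' m m (by omega)

end FiniteField

section PrimeCard

variable {R : Type*} [CommRing R]

/-- If `R ⧸ Q` has prime cardinality, every element of `R` is congruent to a natural number
modulo `Q`. -/
theorem exists_natCast_sub_mem (Q : Ideal R) (hq : (Nat.card (R ⧸ Q)).Prime) (x : R) :
    ∃ n : ℕ, x - (n : R) ∈ Q := by
  classical
  have : Finite (R ⧸ Q) := Nat.finite_of_card_ne_zero hq.ne_zero
  haveI : Fintype (R ⧸ Q) := Fintype.ofFinite _
  have hcard : Fintype.card (R ⧸ Q) = Nat.card (R ⧸ Q) := (Nat.card_eq_fintype_card).symm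
  let e := ZMod.ringEquivOfPrime (R ⧸ Q) hq hcard
  have : NeZero (Nat.card (R ⧸ Q)) := ⟨hq.ne_zero⟩
  refine ⟨(e.symm (Ideal.Quotient.mk Q x)).val, ?_⟩
  rw [← Ideal.Quotient.eq, map_natCast]
  have h1 : ((e.symm (Ideal.Quotient.mk Q x)).val : R ⧸ Q) =
      e ((e.symm (Ideal.Quotient.mk Q x)).val : ZMod (Nat.card (R ⧸ Q))) := by
    rw [map_natCast]
  rw [h1, ZMod.natCast_zmod_val, RingEquiv.apply_symm_apply]

end PrimeCard

end Fermat.Agent.S14x.Stk
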