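import Mathlib
import Fermat.Agent.S14x.Stk.H21_Finite

/-!
# S14 / STK (helper21): the power residue character and its Jacobi sum

Abstract setting: `R` a domain of characteristic zero, `π : R →+* F` a ring homomorphism to a
finite field, `ζ : R` a primitive `p`-th root of unity, `p` a prime with `(p : F) ≠ 0`.

* `isPrimitiveRoot_map` : `π ζ` is a primitive `p`-th root of unity in `F`;
* `ResChar π ζ p k χ` : `χ : MulChar F R` is *the* `p`-th power residue character: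
  `#F - 1 = k * p`, `π (χ x) = x ^ k`, and the nonzero values of `χ` are powers of `ζ`;
* `exists_resChar` : it exists;
* `ResChar.map_jacobiSum_eq_zero` : if `τ ζ = ζ ^ a` with `1 ≤ a`, `2 a < p`, then
  `π (τ (J(χ, χ))) = 0`;
* `ResChar.jacobiSum_mul` : `J(χ, χ) * J(χ⁻¹, χ⁻¹) = #F` for `p ≠ 2`;
* `ResChar.map_jacobiSum_inv` : `τ (J(χ, χ)) = J(χ⁻¹, χ⁻¹)` if `τ ζ = ζ ^ (p - 1)`.
-/

set_option autoImplicit false
set_option linter.style.haveILetI false
set_option linter.unusedSectionVars false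

namespace Fermat.Agent.S14x.Stk

open Finset

variable {R F : Type*} [CommRing R] [IsDomain R] [Field F] [Fintype F] [DecidableEq F]

/-- The reduction of a primitive `p`-th root of unity is primitive if `p ≠ 0` in `F`. -/
theorem isPrimitiveRoot_map (π : R →+* F) {p : ℕ} (hp : p.Prime) {ζ : R}
    (hζ : IsPrimitiveRoot ζ p) (hpF : (p : F) ≠ 0) : IsPrimitiveRoot (π ζ) p := by
  haveI : Fact p.Prime := ⟨hp⟩
  rw [IsPrimitiveRoot.iff_orderOf]
  refine orderOf_eq_prime ?_ ?_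
  · rw [← map_pow, hζ.pow_eq_one, map_one]
  · intro h1
    have h := congrArg π (hζ.geom_sum_eq_zero hp.one_lt)
    rw [map_sum, map_zero] at h
    simp only [map_pow, h1, one_pow, sum_const, card_range, nsmul_eq_mul, mul_one] at h
    exact hpF h

/-- `χ` is the `p`-th power residue character attached to `π` and `ζ`. -/
structure ResChar (π : R →+* F) (ζ : R) (p k : ℕ) (χ : MulChar F R) : Prop where
  card : Fintype.card F - 1 = k * p
  red : ∀ x : F, π (χ x) = x ^ k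
  pow : ∀ x : F, x ≠ 0 → ∃ i : ℕ, χ x = ζ ^ i

/-- Existence of the power residue character. -/
theorem exists_resChar (π : R →+* F) {p : ℕ} (hp : p.Prime) {ζ : R}
    (hζ : IsPrimitiveRoot ζ p) (hpF : (p : F) ≠ 0) :
    ∃ (k : ℕ) (χ : MulChar F R), ResChar π ζ p k χ := by
  classical
  haveI : NeZero p := ⟨hp.ne_zero⟩
  have hζF := isPrimitiveRoot_map π hp hζ hpF
  -- `p ∣ #F - 1`
  have hcardu : Fintype.card Fˣ = Fintype.card F - 1 := Fintype.card_units F
  have hdvd : p ∣ Fintype.card F - 1 := by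
    have h1 : (π ζ) ^ (Fintype.card F - 1) = 1 :=
      FiniteField.pow_card_sub_one_eq_one (π ζ) (hζF.ne_zero hp.ne_zero)
    exact hζF.dvd_of_pow_eq_one _ h1
  obtain ⟨k, hk⟩ := hdvd
  have hk' : Fintype.card F - 1 = k * p := by rw [hk, mul_comm]
  have hcard1 : 1 < Fintype.card F := Fintype.one_lt_card
  have hk0 : k ≠ 0 := by
    rintro rfl
    omega
  -- a generator of `Fˣ`
  obtain ⟨g, hg⟩ := IsCyclic.exists_generator (α := Fˣ)
  have hgk : ((g : F) ^ k) ^ p = 1 := by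
    rw [← pow_mul, ← hk']
    exact FiniteField.pow_card_sub_one_eq_one (g : F) g.ne_zero
  obtain ⟨c, -, hc⟩ := hζF.eq_pow_of_pow_eq_one hgk
  -- the root of unity `ζ ^ c`
  have hξ1 : (ζ ^ c) ^ (Fintype.card Fˣ) = 1 := by
    rw [hcardu, hk', ← pow_mul, mul_comm k p, ← mul_assoc, mul_comm c p, mul_assoc, pow_mul,
      hζ.pow_eq_one, one_pow]
  have hξu : IsUnit (ζ ^ c) :=
    IsUnit.of_pow_eq_one hξ1 (by rw [hcardu]; omega)
  obtain ⟨ξ, hξ⟩ := hξu
  have hξmem : ξ ∈ rootsOfUnity (Fintype.card Fˣ) R := by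
    rw [mem_rootsOfUnity]
    apply Units.ext
    rw [Units.val_pow_eq_pow_val, hξ, hξ1, Units.val_one]
  let χ : MulChar F R := MulChar.ofRootOfUnity hξmem hg
  have hχg : χ g = ζ ^ c := by
    rw [MulChar.ofRootOfUnity_spec, hξ]
  -- values on units
  have hval : ∀ x : Fˣ, ∃ n : ℕ, x = g ^ n ∧ χ x = ζ ^ (c * n) := by
    intro x
    obtain ⟨n, hn⟩ := (mem_powers_iff_mem_zpowers (x := g)).mpr (hg x)
    refine ⟨n, hn.symm, ?_⟩
    have hx : (x : F) = (g : F) ^ n := by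
      rw [← hn, Units.val_pow_eq_pow_val]
    rw [hx, map_pow, hχg, ← pow_mul]
  refine ⟨k, χ, hk', fun x => ?_, fun x hx => ?_⟩
  · by_cases hx : x = 0
    · subst hx
      rw [MulChar.map_zero, map_zero, zero_pow hk0]
    · obtain ⟨n, hn, hχn⟩ := hval (Units.mk0 x hx)
      rw [Units.val_mk0] at hχn
      have hx' : x = (g : F) ^ n := by
        have := congrArg Units.val hn
        rwa [Units.val_mk0, Units.val_pow_eq_pow_val] at this
      rw [hχn, map_pow, pow_mul, hc, hx', ← pow_mul, ← pow_mul, mul_comm]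
  · obtain ⟨n, -, hχn⟩ := hval (Units.mk0 x hx)
    rw [Units.val_mk0] at hχn
    exact ⟨c * n, hχn⟩

namespace ResChar

variable {π : R →+* F} {ζ : R} {p k : ℕ} {χ : MulChar F R}

theorem k_ne_zero (h : ResChar π ζ p k χ) : k ≠ 0 := by
  rintro rfl
  have h1 := h.card
  have : 1 < Fintype.card F := Fintype.one_lt_card
  omega

theorem card_eq (h : ResChar π ζ p k χ) : Fintype.card F = k * p + 1 := by
  have h1 := h.card
  have : 1 < Fintype.card F := Fintype.one_lt_card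
  omega

/-- Conjugating the character: if `τ ζ = ζ ^ a` then `τ ∘ χ = χ ^ a`. -/
theorem ringHomComp_eq_pow (h : ResChar π ζ p k χ) (τ : R →+* R) (a : ℕ)
    (hτ : τ ζ = ζ ^ a) : χ.ringHomComp τ = χ ^ a := by
  refine MulChar.ext fun x => ?_
  obtain ⟨i, hi⟩ := h.pow x x.ne_zero
  rw [MulChar.ringHomComp_apply, MulChar.pow_apply_coe, hi, map_pow, hτ, ← pow_mul, ← pow_mul,
    mul_comm]

/-- The values of `χ ^ a` reduce to `x ^ (k a)`. -/
theorem red_pow (h : ResChar π ζ p k χ) {a : ℕ} (ha : a ≠ 0) (x : F) :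
    π ((χ ^ a) x) = x ^ (k * a) := by
  rw [MulChar.pow_apply' χ ha, map_pow, h.red, ← pow_mul]

/-- **Vanishing of the conjugates of the Jacobi sum modulo the prime.** -/
theorem map_jacobiSum_pow_eq_zero (h : ResChar π ζ p k χ) {a : ℕ} (ha : a ≠ 0)
    (ha2 : 2 * a < p) : π (jacobiSum (χ ^ a) (χ ^ a)) = 0 := by
  rw [jacobiSum, map_sum]
  simp only [map_mul, h.red_pow ha]
  refine sum_pow_mul_one_sub_pow_eq_zero (k * a) ?_
  rw [h.card]
  have hk := h.k_ne_zero
  calc 2 * (k * a) = k * (2 * a) := by ring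
    _ < k * p := Nat.mul_lt_mul_of_pos_left ha2 (Nat.pos_of_ne_zero hk)

theorem map_jacobiSum_eq_zero (h : ResChar π ζ p k χ) (τ : R →+* R) {a : ℕ} (ha : a ≠ 0)
    (ha2 : 2 * a < p) (hτ : τ ζ = ζ ^ a) : π (τ (jacobiSum χ χ)) = 0 := by
  rw [← jacobiSum_ringHomComp, h.ringHomComp_eq_pow τ a hτ]
  exact h.map_jacobiSum_pow_eq_zero ha ha2

/-- `χ ^ m ≠ 1` for `0 < m < p`. -/
theorem pow_ne_one (h : ResChar π ζ p k χ) {m : ℕ} (hm0 : m ≠ 0) (hmp : m < p) : χ ^ m ≠ 1 := by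
  intro h1
  have hall : ∀ x : Fˣ, x ^ (k * m) = 1 := by
    intro x
    apply Units.ext
    rw [Units.val_pow_eq_pow_val, Units.val_one, ← h.red_pow hm0, h1, MulChar.one_apply_coe,
      map_one]
  have hdvd := (FiniteField.forall_pow_eq_one_iff F (k * m)).mp hall
  rw [h.card] at hdvd
  have hk := h.k_ne_zero
  have h2 : p ∣ m := (Nat.mul_dvd_mul_iff_left (Nat.pos_of_ne_zero hk)).mp hdvd
  have := Nat.le_of_dvd (Nat.pos_of_ne_zero hm0) h2
  omega

theorem ne_one (h : ResChar π ζ p k χ) (hp : 2 ≤ p) : χ ≠ 1 := by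
  have := h.pow_ne_one (m := 1) one_ne_zero (by omega)
  rwa [pow_one] at this

theorem mul_self_ne_one (h : ResChar π ζ p k χ) (hp : 3 ≤ p) : χ * χ ≠ 1 := by
  have := h.pow_ne_one (m := 2) two_ne_zero (by omega)
  rwa [pow_two] at this

/-- `χ ^ p = 1`. -/
theorem pow_eq_one (h : ResChar π ζ p k χ) (hζ : ζ ^ p = 1) : χ ^ p = 1 := by
  refine MulChar.ext fun x => ?_
  obtain ⟨i, hi⟩ := h.pow x x.ne_zero
  rw [MulChar.pow_apply_coe, MulChar.one_apply_coe, hi, ← pow_mul, mul_comm, pow_mul, hζ, one_pow]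

/-- `χ ^ (p - 1) = χ⁻¹`. -/
theorem pow_pred_eq_inv (h : ResChar π ζ p k χ) (hζ : ζ ^ p = 1) (hp : 1 ≤ p) :
    χ ^ (p - 1) = χ⁻¹ := by
  rw [eq_inv_iff_mul_eq_one, ← pow_succ, Nat.sub_add_cancel hp, h.pow_eq_one hζ]

/-- The "complex conjugate" of the Jacobi sum. -/
theorem map_jacobiSum_inv (h : ResChar π ζ p k χ) (hζ : ζ ^ p = 1) (hp : 1 ≤ p) (τ : R →+* R)
    (hτ : τ ζ = ζ ^ (p - 1)) : τ (jacobiSum χ χ) = jacobiSum χ⁻¹ χ⁻¹ := by
  rw [← jacobiSum_ringHomComp, h.ringHomComp_eq_pow τ (p - 1) hτ, h.pow_pred_eq_inv hζ hp]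

/-- `J(χ, χ) * J(χ⁻¹, χ⁻¹) = #F`. -/
theorem jacobiSum_mul [CharZero R] (h : ResChar π ζ p k χ) (hp : 3 ≤ p) :
    jacobiSum χ χ * jacobiSum χ⁻¹ χ⁻¹ = (Fintype.card F : R) := by
  have hinj : Function.Injective (algebraMap R (FractionRing R)) :=
    IsFractionRing.injective R (FractionRing R)
  apply hinj
  rw [map_mul, ← jacobiSum_ringHomComp, ← jacobiSum_ringHomComp, map_natCast,
    ← MulChar.ringHomComp_inv]
  have hchar : ringChar (FractionRing R) ≠ ringChar F := by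
    haveI : CharZero (FractionRing R) := charZero_of_injective_algebraMap hinj
    rw [ringChar.eq_zero]
    exact (CharP.ringChar_ne_zero_of_finite F).symm
  have h1 : χ.ringHomComp (algebraMap R (FractionRing R)) ≠ 1 :=
    (MulChar.ringHomComp_ne_one_iff hinj).mpr (h.ne_one (by omega))
  have h2 : χ.ringHomComp (algebraMap R (FractionRing R)) *
      χ.ringHomComp (algebraMap R (FractionRing R)) ≠ 1 := by
    rw [← MulChar.ringHomComp_mul]
    exact (MulChar.ringHomComp_ne_one_iff hinj).mpr (h.mul_self_ne_one hp)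
  exact jacobiSum_mul_jacobiSum_inv hchar h1 h1 h2

end ResChar

end Fermat.Agent.S14x.Stk
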