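import Mathlib
import Fermat.Agent.S14x.Stk.H21_Char

/-!
# S14 / STK (helper21): factorisation of the Jacobi sum, abstract form

`R` a Dedekind domain, free of finite rank `p - 1` over `ℤ`, `ζ : R` a primitive `p`-th root of
unity, `Q` a maximal ideal with residue field of prime cardinality `q ≠ p`, automorphisms
`e a` of `R` with `e a ζ = ζ ^ a` for `1 ≤ a ≤ (p - 1) / 2` and `c` with `c ζ = ζ ^ (p - 1)`.
Then there is `J : R` with `(J) = ∏_{a = 1}^{(p-1)/2} (e a)⁻¹ Q`.
-/

set_option autoImplicit false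
set_option linter.style.haveILetI false
set_option linter.unusedSectionVars false

namespace Fermat.Agent.S14x.Stk

open Finset

section Card

variable {R : Type*} [CommRing R]

/-- The quotient by the preimage of an ideal under an automorphism has the same cardinality. -/
theorem card_quot_comap (e : R ≃+* R) (Q : Ideal R) :
    Nat.card (R ⧸ Q.comap (e : R →+* R)) = Nat.card (R ⧸ Q) := by
  have h : Q = (Q.comap (e : R →+* R)).map (e : R →+* R) :=
    (Ideal.map_comap_of_surjective (e : R →+* R) e.surjective Q).symm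
  exact Nat.card_congr (Ideal.quotientEquiv (Q.comap (e : R →+* R)) Q e h).toEquiv

/-- The quotient by the image of an ideal under an automorphism has the same cardinality. -/
theorem card_quot_map (e : R ≃+* R) (I : Ideal R) :
    Nat.card (R ⧸ I.map (e : R →+* R)) = Nat.card (R ⧸ I) :=
  (Nat.card_congr (Ideal.quotientEquiv I (I.map (e : R →+* R)) e rfl).toEquiv).symm

end Card

section Main

variable {R : Type*} [CommRing R] [IsDedekindDomain R] [Module.Free ℤ R] [Module.Finite ℤ R]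
  [CharZero R]

theorem absNorm_comap (e : R ≃+* R) (Q : Ideal R) :
    Ideal.absNorm (Q.comap (e : R →+* R)) = Ideal.absNorm Q := by
  rw [Ideal.absNorm_apply, Ideal.absNorm_apply, Submodule.cardQuot_apply,
    Submodule.cardQuot_apply]
  exact card_quot_comap e Q

theorem absNorm_map (e : R ≃+* R) (I : Ideal R) :
    Ideal.absNorm (I.map (e : R →+* R)) = Ideal.absNorm I := by
  rw [Ideal.absNorm_apply, Ideal.absNorm_apply, Submodule.cardQuot_apply,
    Submodule.cardQuot_apply]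
  exact card_quot_map e I

/-- Distinct exponents give distinct conjugates of a degree one prime. -/
theorem comap_ne_comap {p : ℕ} (hp : p.Prime) {ζ : R} (hζ : IsPrimitiveRoot ζ p)
    (Q : Ideal R) [Q.IsMaximal] (hq : (Nat.card (R ⧸ Q)).Prime) (hpQ : (p : R) ∉ Q)
    (e e' : R ≃+* R) {a b : ℕ} (ha : a < p) (hb : b < p) (hab : a ≠ b)
    (he : e ζ = ζ ^ a) (he' : e' ζ = ζ ^ b) :
    Q.comap (e : R →+* R) ≠ Q.comap (e' : R →+* R) := by
  classical
  intro heq
  letI : Field (R ⧸ Q) := Ideal.Quotient.field Q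
  have hfin : Finite (R ⧸ Q) := Nat.finite_of_card_ne_zero hq.ne_zero
  letI : Fintype (R ⧸ Q) := Fintype.ofFinite _
  have hpF : ((p : ℕ) : R ⧸ Q) ≠ 0 := by
    rw [← map_natCast (Ideal.Quotient.mk Q), Ne, Ideal.Quotient.eq_zero_iff_mem]
    exact hpQ
  have hζF := isPrimitiveRoot_map (Ideal.Quotient.mk Q) hp hζ hpF
  have hq' : (Nat.card (R ⧸ Q.comap (e : R →+* R))).Prime := by
    rw [card_quot_comap]; exact hq
  obtain ⟨n, hn⟩ := exists_natCast_sub_mem (Q.comap (e : R →+* R)) hq' ζ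
  have h1 : ζ ^ a - (n : R) ∈ Q := by
    have := hn
    rw [Ideal.mem_comap] at this
    simpa [he] using this
  have h2 : ζ ^ b - (n : R) ∈ Q := by
    have := hn
    rw [heq, Ideal.mem_comap] at this
    simpa [he'] using this
  have h3 : ζ ^ a - ζ ^ b ∈ Q := by
    have := Q.sub_mem h1 h2
    simpa using this
  have h4 : (Ideal.Quotient.mk Q ζ) ^ a = (Ideal.Quotient.mk Q ζ) ^ b := by
    rw [← map_pow, ← map_pow]
    exact (Ideal.Quotient.eq).mpr h3
  exact hab (hζF.pow_inj ha hb h4)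

/-- **Factorisation of the Jacobi sum** (abstract form). -/
theorem exists_span_eq_prod_comap {p : ℕ} (hp : p.Prime) (hp3 : 3 ≤ p)
    (hrank : Module.finrank ℤ R = p - 1) {ζ : R} (hζ : IsPrimitiveRoot ζ p)
    (Q : Ideal R) [Q.IsMaximal] (hq : (Nat.card (R ⧸ Q)).Prime) (hpQ : (p : R) ∉ Q)
    (e : ℕ → (R ≃+* R)) (he : ∀ a ∈ Icc 1 ((p - 1) / 2), e a ζ = ζ ^ a)
    (c : R ≃+* R) (hc : c ζ = ζ ^ (p - 1)) :
    ∃ J : R, Ideal.span {J} = ∏ a ∈ Icc 1 ((p - 1) / 2), Q.comap (e a : R →+* R) := by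
  classical
  letI : Field (R ⧸ Q) := Ideal.Quotient.field Q
  have hfin : Finite (R ⧸ Q) := Nat.finite_of_card_ne_zero hq.ne_zero
  letI : Fintype (R ⧸ Q) := Fintype.ofFinite _
  have hpF : ((p : ℕ) : R ⧸ Q) ≠ 0 := by
    rw [← map_natCast (Ideal.Quotient.mk Q), Ne, Ideal.Quotient.eq_zero_iff_mem]
    exact hpQ
  obtain ⟨k, χ, hχ⟩ := exists_resChar (Ideal.Quotient.mk Q) hp hζ hpF
  set q := Nat.card (R ⧸ Q) with hqdef
  have hcardq : Fintype.card (R ⧸ Q) = q := (Nat.card_eq_fintype_card).symm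
  set h := (p - 1) / 2 with hh
  have hodd : p - 1 = 2 * h := by
    have := hp.eq_one_or_self_of_dvd 2
    rcases Nat.even_or_odd p with hev | hodd'
    · have := (Nat.Prime.even_iff hp).mp hev
      omega
    · obtain ⟨m, hm⟩ := hodd'
      omega
  set J := jacobiSum χ χ with hJ
  refine ⟨J, ?_⟩
  -- the primes
  set 𝔮 : ℕ → Ideal R := fun a => Q.comap (e a : R →+* R) with h𝔮
  have hnorm𝔮 : ∀ a, Ideal.absNorm (𝔮 a) = q := by
    intro a
    rw [h𝔮, absNorm_comap, Ideal.absNorm_apply, Submodule.cardQuot_apply]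
  have hne𝔮 : ∀ a, 𝔮 a ≠ ⊥ := by
    intro a h0
    have := hnorm𝔮 a
    rw [h0, Ideal.absNorm_bot] at this
    exact hq.ne_zero this.symm
  have hprime𝔮 : ∀ a, Prime (𝔮 a) := fun a =>
    Ideal.prime_of_isPrime (hne𝔮 a) (Ideal.comap_isPrime _ _)
  have hmem : ∀ a ∈ Icc 1 h, J ∈ 𝔮 a := by
    intro a ha
    have ha' := mem_Icc.mp ha
    rw [h𝔮, Ideal.mem_comap, ← Ideal.Quotient.eq_zero_iff_mem]
    exact hχ.map_jacobiSum_eq_zero (e a : R →+* R) (by omega) (by omega) (he a ha)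
  have hinj : Set.InjOn 𝔮 (Icc 1 h : Finset ℕ) := by
    intro a ha b hb hab
    by_contra hne
    have ha' := mem_Icc.mp ha
    have hb' := mem_Icc.mp hb
    exact comap_ne_comap hp hζ Q hq hpQ (e a) (e b) (by omega) (by omega) hne (he a ha)
      (he b hb) hab
  -- the product divides `(J)`
  have hdvd : ∏ a ∈ Icc 1 h, 𝔮 a ∣ Ideal.span {J} := by
    rw [← Finset.prod_image (f := fun P : Ideal R => P) hinj]
    refine Finset.prod_primes_dvd _ ?_ ?_
    · intro P hP
      obtain ⟨a, -, rfl⟩ := mem_image.mp hP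
      exact hprime𝔮 a
    · intro P hP
      obtain ⟨a, ha, rfl⟩ := mem_image.mp hP
      rw [Ideal.dvd_iff_le, Ideal.span_singleton_le_iff_mem]
      exact hmem a ha
  obtain ⟨𝔠, h𝔠⟩ := hdvd
  -- norms
  have hJJ : J * jacobiSum χ⁻¹ χ⁻¹ = (q : R) := by
    rw [hJ, hχ.jacobiSum_mul hp3, hcardq]
  have hJ' : jacobiSum χ⁻¹ χ⁻¹ = c J :=
    (hχ.map_jacobiSum_inv hζ.pow_eq_one hp.one_le (c : R →+* R) hc).symm
  have hN : Ideal.absNorm (Ideal.span {J}) = q ^ h := by
    have h1 : Ideal.absNorm (Ideal.span {J}) * Ideal.absNorm (Ideal.span {c J}) = q ^ (p - 1) := by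
      rw [← map_mul, Ideal.span_singleton_mul_span_singleton, ← hJ', hJJ,
        Ideal.absNorm_span_natCast, hrank]
    have h2 : Ideal.span {c J} = (Ideal.span {J}).map (c : R →+* R) := by
      rw [Ideal.map_span, Set.image_singleton]
      rfl
    rw [h2, absNorm_map, hodd, mul_comm 2 h, pow_mul, ← pow_two] at h1
    exact Nat.pow_left_injective (by norm_num : 2 ≠ 0) h1
  have hNprod : Ideal.absNorm (∏ a ∈ Icc 1 h, 𝔮 a) = q ^ h := by
    rw [map_prod, Finset.prod_congr rfl (fun a _ => hnorm𝔮 a), Finset.prod_const]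
    simp
  have h𝔠top : 𝔠 = ⊤ := by
    rw [← Ideal.absNorm_eq_one_iff]
    have h3 := congrArg Ideal.absNorm h𝔠
    rw [map_mul, hN, hNprod] at h3
    have hqpos : 0 < q ^ h := pow_pos hq.pos h
    exact (Nat.eq_of_mul_eq_mul_left hqpos (by rw [mul_one]; exact h3.symm))
  rw [h𝔠, h𝔠top, Ideal.mul_top]

end Main

end Fermat.Agent.S14x.Stk
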