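import Mathlib
import Fermat.Agent.S14x.Stk.H21_Ideal

/-!
# S14 / STK (helper21): the Jacobi sum generates `∏_{a=1}^{(p-1)/2} σ_a⁻¹ Q`

`K = ℚ(ζ_p)` (any number field with `IsCyclotomicExtension {p} ℚ K`), `p ≥ 3` prime, `Q` a prime
of `𝓞 K` of degree one (`#(𝓞 K ⧸ Q)` prime) not containing `p`.  For automorphisms `σ_a` with
`σ_a ζ = ζ ^ a` (`1 ≤ a ≤ (p - 1) / 2`) the ideal `∏ σ_a⁻¹ Q` is principal.
-/

set_option autoImplicit false
set_option linter.style.haveILetI false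
set_option linter.unusedSectionVars false

namespace Fermat.Agent.S14x.Stk

open Finset NumberField

variable (p : ℕ) [Fact p.Prime] (K : Type*) [Field K] [NumberField K]
  [IsCyclotomicExtension {p} ℚ K]

/-- The rank of the ring of integers of `ℚ(ζ_p)`. -/
theorem finrank_ringOfIntegers : Module.finrank ℤ (𝓞 K) = p - 1 := by
  have hp : p.Prime := Fact.out
  haveI : NeZero p := ⟨hp.ne_zero⟩
  rw [RingOfIntegers.rank, IsCyclotomicExtension.finrank (n := p) K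
    (Polynomial.cyclotomic.irreducible_rat hp.pos), Nat.totient_prime hp]

/-- The automorphism `ζ ↦ ζ ^ a` of `𝓞 K`, `a` prime to `p`. -/
theorem exists_ringEquiv_pow {ζ : 𝓞 K} (hζ : IsPrimitiveRoot ζ p) (a : ℕ) (ha : a.Coprime p) :
    ∃ c : 𝓞 K ≃+* 𝓞 K, c ζ = ζ ^ a := by
  have hp : p.Prime := Fact.out
  haveI : NeZero p := ⟨hp.ne_zero⟩
  have hirr := Polynomial.cyclotomic.irreducible_rat hp.pos
  have hζK : IsPrimitiveRoot (ζ : K) p :=
    hζ.map_of_injective (RingOfIntegers.coe_injective (K := K))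
  -- the automorphism sending `zeta` to `zeta ^ a`
  have hz := IsCyclotomicExtension.zeta_spec p ℚ K
  have hza : IsPrimitiveRoot (IsCyclotomicExtension.zeta p ℚ K ^ a) p := hz.pow_of_coprime a ha
  let σ : K ≃ₐ[ℚ] K := IsCyclotomicExtension.fromZetaAut hza hirr
  have hσ : σ (IsCyclotomicExtension.zeta p ℚ K) = IsCyclotomicExtension.zeta p ℚ K ^ a :=
    IsCyclotomicExtension.fromZetaAut_spec hza hirr
  -- hence every `p`-th root of unity is raised to the power `a`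
  obtain ⟨i, -, hi⟩ := hz.eq_pow_of_pow_eq_one hζK.pow_eq_one
  have hσζ : σ (ζ : K) = (ζ : K) ^ a := by
    rw [← hi, map_pow, hσ, ← pow_mul, ← pow_mul, mul_comm]
  refine ⟨(galRestrict ℤ ℚ K (𝓞 K) σ).toRingEquiv, ?_⟩
  apply RingOfIntegers.coe_injective (K := K)
  have := algebraMap_galRestrict_apply ℤ σ ζ
  rw [map_pow]
  exact this.trans hσζ

/-- **(S), ring automorphism form.** -/
theorem stk_ringEquiv (hp3 : 3 ≤ p) (Q : Ideal (𝓞 K)) [Q.IsMaximal]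
    (hq : (Nat.card (𝓞 K ⧸ Q)).Prime) (hpQ : (p : 𝓞 K) ∉ Q)
    {ζ : 𝓞 K} (hζ : IsPrimitiveRoot ζ p)
    (e : ℕ → (𝓞 K ≃+* 𝓞 K)) (he : ∀ a ∈ Icc 1 ((p - 1) / 2), e a ζ = ζ ^ a) :
    ∃ J : 𝓞 K, Ideal.span {J} = ∏ a ∈ Icc 1 ((p - 1) / 2), Q.comap (e a : 𝓞 K →+* 𝓞 K) := by
  have hp : p.Prime := Fact.out
  have hcop : (p - 1).Coprime p := by
    rw [Nat.coprime_comm, Nat.Prime.coprime_iff_not_dvd hp]
    intro h
    have h1 := Nat.le_of_dvd (by omega) h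
    omega
  obtain ⟨c, hc⟩ := exists_ringEquiv_pow p K hζ (p - 1) hcop
  exact exists_span_eq_prod_comap hp hp3 (finrank_ringOfIntegers p K) hζ Q hq hpQ e he c hc

/-- **(S), Galois form**: `(J) = ∏_{a=1}^{(p-1)/2} σ_a⁻¹ Q`, with `σ_a⁻¹ Q` written as the preimage
of `Q` under (the restriction to `𝓞 K` of) `σ_a = τ a`. -/
theorem stk_gal (hp3 : 3 ≤ p) (Q : Ideal (𝓞 K)) [Q.IsMaximal]
    (hq : (Nat.card (𝓞 K ⧸ Q)).Prime) (hpQ : (p : 𝓞 K) ∉ Q)
    {ζ : K} (hζ : IsPrimitiveRoot ζ p)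
    (τ : ℕ → (K ≃ₐ[ℚ] K)) (hτ : ∀ a ∈ Icc 1 ((p - 1) / 2), τ a ζ = ζ ^ a) :
    ∃ J : 𝓞 K, Ideal.span {J} =
      ∏ a ∈ Icc 1 ((p - 1) / 2),
        Q.comap ((galRestrict ℤ ℚ K (𝓞 K) (τ a)).toRingEquiv : 𝓞 K →+* 𝓞 K) := by
  have hp : p.Prime := Fact.out
  haveI : NeZero p := ⟨hp.ne_zero⟩
  refine stk_ringEquiv p K hp3 Q hq hpQ hζ.toInteger_isPrimitiveRoot
    (fun a => (galRestrict ℤ ℚ K (𝓞 K) (τ a)).toRingEquiv) (fun a ha => ?_)
  apply RingOfIntegers.coe_injective (K := K)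
  have := algebraMap_galRestrict_apply ℤ (τ a) hζ.toInteger
  rw [map_pow]
  exact this.trans (hτ a ha)

/-! ### The eigenvalue `1 + 2 + ⋯ + (p - 1) / 2` is a unit modulo `p` -/

omit [Fact p.Prime] in
theorem sum_Icc_one_mul_two (h : ℕ) : (∑ a ∈ Icc 1 h, a) * 2 = h * (h + 1) := by
  induction h with
  | zero => simp
  | succ n ih =>
    rw [Finset.sum_Icc_succ_top (by omega), add_mul, ih]
    ring

/-- `∑_{a=1}^{(p-1)/2} a = (p² - 1) / 8` is not divisible by `p`. -/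
theorem sum_Icc_half_ne_zero (hp3 : 3 ≤ p) :
    (∑ a ∈ Icc 1 ((p - 1) / 2), (a : ZMod p)) ≠ 0 := by
  have hp : p.Prime := Fact.out
  set h := (p - 1) / 2 with hh
  have hodd : p = 2 * h + 1 := by
    rcases Nat.even_or_odd p with hev | hodd'
    · have := (Nat.Prime.even_iff hp).mp hev
      omega
    · obtain ⟨m, hm⟩ := hodd'
      omega
  intro h0
  have h1 : ((∑ a ∈ Icc 1 h, a : ℕ) : ZMod p) = 0 := by
    rw [Nat.cast_sum]; exact h0
  have h2 : (p : ℕ) ∣ ∑ a ∈ Icc 1 h, a := (ZMod.natCast_eq_zero_iff _ _).mp h1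
  have h3 : p ∣ h * (h + 1) := by
    rw [← sum_Icc_one_mul_two]
    exact Dvd.dvd.mul_right h2 2
  rcases (Nat.Prime.dvd_mul hp).mp h3 with h4 | h4
  · have := Nat.le_of_dvd (by omega) h4
    omega
  · have := Nat.le_of_dvd (by omega) h4
    omega

end Fermat.Agent.S14x.Stk
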