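import Mathlib
import Fermat.Agent.S14x.Stk.Defs
import Fermat.Agent.S14x.Stk.H21_Stk

/-!
# S14 / STK (helper21): the deliverable `StStk`, unconditionally

`stStk : StStk p K Q q` (helper26's interface `Stk/Defs.lean`), from `stk_gal`.
-/

set_option autoImplicit false
set_option linter.style.haveILetI false
set_option linter.unusedSectionVars false

namespace Fermat.Agent.S14x.Stk

open Finset NumberField

/-- **The deliverable of the package STK.** -/
theorem stStk (p : ℕ) (K : Type) [Field K] [NumberField K] (Q : Ideal (𝓞 K)) (q : ℕ) :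
    StStk p K Q q := by
  intro h τ hτ
  haveI := h.cyc
  haveI := h.max
  haveI : Fact p.Prime := ⟨h.hp⟩
  haveI : NeZero p := ⟨h.hp.ne_zero⟩
  have hqcard : (Nat.card (𝓞 K ⧸ Q)).Prime := by rw [h.card]; exact h.hq
  -- `p ∉ Q`
  have hpQ : (p : 𝓞 K) ∉ Q := by
    intro hp
    have h1 : ((Ideal.absNorm Q : ℕ) : 𝓞 K) ∈ Q := Ideal.absNorm_mem Q
    have h2 : Ideal.absNorm Q = q := by
      rw [Ideal.absNorm_apply, Submodule.cardQuot_apply]
      exact h.card
    rw [h2] at h1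
    -- `p` and `q` are coprime, so `1 ∈ Q`
    have hcop : Nat.Coprime p q := (Nat.coprime_primes h.hp h.hq).mpr (Ne.symm h.hqp)
    have h3 : ((Nat.gcd p q : ℕ) : 𝓞 K) ∈ Q := by
      have hb := Nat.gcd_eq_gcd_ab p q
      have h4 : (((Nat.gcd p q : ℕ) : ℤ) : 𝓞 K) =
          (p : 𝓞 K) * ((Nat.gcdA p q : ℤ) : 𝓞 K) + (q : 𝓞 K) * ((Nat.gcdB p q : ℤ) : 𝓞 K) := by
        rw [hb]
        push_cast
        ring
      have h5 : (((Nat.gcd p q : ℕ) : ℤ) : 𝓞 K) ∈ Q := by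
        rw [h4]
        exact Q.add_mem (Q.mul_mem_right _ hp) (Q.mul_mem_right _ h1)
      simpa using h5
    rw [hcop.gcd_eq_one, Nat.cast_one] at h3
    exact (Ideal.ne_top_iff_one Q).mp h.max.ne_top h3
  have hz := IsCyclotomicExtension.zeta_spec p ℚ K
  obtain ⟨J, hJ⟩ := stk_gal p K h.hp3 Q hqcard hpQ hz τ (fun a ha => hτ a ha _ hz)
  have hprod : ∏ a ∈ Icc 1 ((p - 1) / 2), Ideal.comap (resO K (τ a)) Q =
      ∏ a ∈ Icc 1 ((p - 1) / 2),
        Q.comap ((galRestrict ℤ ℚ K (𝓞 K) (τ a)).toRingEquiv : 𝓞 K →+* 𝓞 K) := by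
    refine Finset.prod_congr rfl fun a _ => ?_
    rfl
  refine ⟨J, ?_, ?_⟩
  · rintro rfl
    -- the product is nonzero
    have h0 : (∏ a ∈ Icc 1 ((p - 1) / 2),
        Q.comap ((galRestrict ℤ ℚ K (𝓞 K) (τ a)).toRingEquiv : 𝓞 K →+* 𝓞 K)) = ⊥ := by
      rw [← hJ]
      simp
    have h1 := congrArg Ideal.absNorm h0
    rw [map_prod, Ideal.absNorm_bot, Finset.prod_eq_zero_iff] at h1
    obtain ⟨a, -, ha⟩ := h1
    rw [absNorm_comap, Ideal.absNorm_apply, Submodule.cardQuot_apply] at ha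
    exact hqcard.ne_zero ha
  · rw [hprod]
    exact hJ

end Fermat.Agent.S14x.Stk
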