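import Mathlib

/-!
# S14 / STK (helper17): the residue character and the Jacobi sum congruence

`R` a commutative ring, `Q` a maximal ideal with finite residue field `F = R ⧸ Q` of cardinality
`q`, `p` a prime with `q - 1 = k * p`, `ζ ∈ R` with `ζ ^ p = 1` and `ζ ≢ 1 mod Q`.

* `ResData.chi` : the multiplicative character `χ : F → R` with values in `⟨ζ⟩ ∪ {0}` and
  `χ x ≡ x ^ k mod Q` (the `p`-th power residue character).
* `ResData.jacobiSum_mem` : `J(χ^a, χ^b) ∈ Q` for `0 < a`, `0 < b`, `a + b < p`.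
* `ResData.jacobiSum_mem_comap` : for a ring endomorphism `σ` with `σ ζ = ζ ^ t`, `0 < t`,
  `2 t < p`: `J(χ, χ) ∈ σ⁻¹ Q`.
* `ResData.jacobiSum_mul_map` : `J(χ,χ) * c (J(χ,χ)) = q` for `c ζ = ζ ^ (p - 1)` (`R` a domain
  of characteristic zero, `p` odd).
-/

set_option autoImplicit false
set_option linter.unusedSectionVars false

namespace Fermat.Agent.S14x.Stk

open Finset

/-! ### Power sums over a finite field -/

theorem sum_pow_mul_one_sub_pow {F : Type*} [Field F] [Fintype F] (m n : ℕ)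
    (h : m + n < Fintype.card F - 1) : ∑ x : F, x ^ m * (1 - x) ^ n = 0 := by
  have e : ∀ x : F, x ^ m * (1 - x) ^ n =
      ∑ j ∈ range (n + 1), ((-1) ^ j * (n.choose j : F)) * x ^ (m + j) := by
    intro x
    rw [sub_eq_add_neg, add_comm, add_pow, mul_sum]
    refine sum_congr rfl fun j _ => ?_
    rw [one_pow, mul_one, neg_pow, pow_add]
    ring
  simp_rw [e]
  rw [sum_comm]
  refine sum_eq_zero fun j hj => ?_
  rw [← mul_sum, FiniteField.sum_pow_lt_card_sub_one F _ (by have := mem_range.mp hj; omega),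
    mul_zero]

/-! ### The residue character -/

section Char

attribute [local instance] Ideal.Quotient.field

variable {R : Type*} [CommRing R] (Q : Ideal R) [Q.IsMaximal] [Fintype (R ⧸ Q)]
  (p : ℕ) (ζ : R) (k : ℕ)

/-- The data needed to define the `p`-th power residue character modulo `Q`. -/
structure ResData : Prop where
  prime : p.Prime
  pow_eq : ζ ^ p = 1
  ne_one : Ideal.Quotient.mk Q ζ ≠ 1
  card : Fintype.card (R ⧸ Q) - 1 = k * p

/-- A lift of `y` to a power of `ζ` (or `0` if there is none). -/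
noncomputable def resLift (y : R ⧸ Q) : R :=
  open Classical in
  if hy : ∃ i : ℕ, Ideal.Quotient.mk Q (ζ ^ i) = y then ζ ^ hy.choose else 0

/-- The underlying function of the residue character. -/
noncomputable def chiFun (x : R ⧸ Q) : R :=
  open Classical in
  if x = 0 then 0 else resLift Q ζ (x ^ k)

variable {Q p ζ k}

namespace ResData

variable (h : ResData Q p ζ k)
include h

lemma mk_pow_eq : (Ideal.Quotient.mk Q ζ) ^ p = 1 := by
  rw [← map_pow, h.pow_eq, map_one]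

lemma orderOf_mk : orderOf (Ideal.Quotient.mk Q ζ) = p :=
  have := Fact.mk h.prime
  orderOf_eq_prime h.mk_pow_eq h.ne_one

lemma isPrimitiveRoot_mk : IsPrimitiveRoot (Ideal.Quotient.mk Q ζ) p := by
  have := IsPrimitiveRoot.orderOf (Ideal.Quotient.mk Q ζ)
  rwa [h.orderOf_mk] at this

lemma k_pos : 0 < k := by
  have h1 : 1 < Fintype.card (R ⧸ Q) := Fintype.one_lt_card
  have h2 := h.card
  rcases Nat.eq_zero_or_pos k with h0 | h0
  · rw [h0, zero_mul] at h2; omega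
  · exact h0

lemma card_eq : Fintype.card (R ⧸ Q) = k * p + 1 := by
  have h1 : 1 < Fintype.card (R ⧸ Q) := Fintype.one_lt_card
  have h2 := h.card
  omega

/-- Two powers of `ζ` which are congruent modulo `Q` are equal. -/
lemma pow_eq_of_mk_eq {i j : ℕ}
    (hij : Ideal.Quotient.mk Q (ζ ^ i) = Ideal.Quotient.mk Q (ζ ^ j)) : ζ ^ i = ζ ^ j := by
  rw [map_pow, map_pow, pow_eq_pow_mod i h.mk_pow_eq, pow_eq_pow_mod j h.mk_pow_eq] at hij
  have hp := h.prime.pos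
  have := h.isPrimitiveRoot_mk.pow_inj (Nat.mod_lt i hp) (Nat.mod_lt j hp) hij
  rw [pow_eq_pow_mod i h.pow_eq, pow_eq_pow_mod j h.pow_eq, this]

lemma exists_pow_eq {x : R ⧸ Q} (hx : x ≠ 0) : ∃ i : ℕ, Ideal.Quotient.mk Q (ζ ^ i) = x ^ k := by
  have : NeZero p := ⟨h.prime.ne_zero⟩
  have h1 : (x ^ k) ^ p = 1 := by
    rw [← pow_mul, ← h.card]
    exact FiniteField.pow_card_sub_one_eq_one x hx
  obtain ⟨i, -, hi⟩ := h.isPrimitiveRoot_mk.eq_pow_of_pow_eq_one h1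
  exact ⟨i, by rw [map_pow, hi]⟩

lemma chiFun_zero : chiFun Q ζ k 0 = 0 := by
  simp [chiFun]

lemma chiFun_spec {x : R ⧸ Q} (hx : x ≠ 0) :
    ∃ i : ℕ, chiFun Q ζ k x = ζ ^ i ∧ Ideal.Quotient.mk Q (ζ ^ i) = x ^ k := by
  have hex := h.exists_pow_eq hx
  refine ⟨hex.choose, ?_, hex.choose_spec⟩
  simp only [chiFun, if_neg hx, resLift, dif_pos hex]

lemma mk_chiFun (x : R ⧸ Q) : Ideal.Quotient.mk Q (chiFun Q ζ k x) = x ^ k := by
  by_cases hx : x = 0
  · subst hx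
    rw [h.chiFun_zero, map_zero, zero_pow h.k_pos.ne']
  · obtain ⟨i, hi, hi'⟩ := h.chiFun_spec hx
    rw [hi, hi']

lemma chiFun_one : chiFun Q ζ k 1 = 1 := by
  obtain ⟨i, hi, hi'⟩ := h.chiFun_spec (one_ne_zero : (1 : R ⧸ Q) ≠ 0)
  rw [hi, ← pow_zero ζ]
  apply h.pow_eq_of_mk_eq
  rw [hi', one_pow, pow_zero, map_one]

lemma chiFun_mul (x y : R ⧸ Q) : chiFun Q ζ k (x * y) = chiFun Q ζ k x * chiFun Q ζ k y := by
  by_cases hx : x = 0
  · subst hx; rw [zero_mul, h.chiFun_zero, zero_mul]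
  by_cases hy : y = 0
  · subst hy; rw [mul_zero, h.chiFun_zero, mul_zero]
  obtain ⟨i, hi, hi'⟩ := h.chiFun_spec hx
  obtain ⟨j, hj, hj'⟩ := h.chiFun_spec hy
  obtain ⟨l, hl, hl'⟩ := h.chiFun_spec (mul_ne_zero hx hy)
  rw [hi, hj, hl, ← pow_add]
  apply h.pow_eq_of_mk_eq
  rw [hl', pow_add, map_mul, hi', hj', mul_pow]

/-- The `p`-th power residue character modulo `Q`. -/
noncomputable def chi : MulChar (R ⧸ Q) R where
  toFun := chiFun Q ζ k
  map_one' := h.chiFun_one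
  map_mul' := h.chiFun_mul
  map_nonunit' := fun a ha => by
    have : a = 0 := by
      by_contra ha0
      exact ha (isUnit_iff_ne_zero.mpr ha0)
    subst this
    exact h.chiFun_zero

lemma chi_apply (x : R ⧸ Q) : h.chi x = chiFun Q ζ k x := rfl

lemma mk_chi (x : R ⧸ Q) : Ideal.Quotient.mk Q (h.chi x) = x ^ k := h.mk_chiFun x

lemma chi_spec {x : R ⧸ Q} (hx : x ≠ 0) :
    ∃ i : ℕ, h.chi x = ζ ^ i ∧ Ideal.Quotient.mk Q (ζ ^ i) = x ^ k := h.chiFun_spec hx

lemma mk_chi_pow {a : ℕ} (ha : a ≠ 0) (x : R ⧸ Q) :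
    Ideal.Quotient.mk Q ((h.chi ^ a) x) = x ^ (k * a) := by
  rw [MulChar.pow_apply' _ ha, map_pow, h.mk_chi, pow_mul]

/-- **The congruence**: `J(χ^a, χ^b) ≡ 0 mod Q` if `a + b < p`. -/
theorem jacobiSum_mem {a b : ℕ} (ha : 0 < a) (hb : 0 < b) (hab : a + b < p) :
    jacobiSum (h.chi ^ a) (h.chi ^ b) ∈ Q := by
  rw [← Ideal.Quotient.eq_zero_iff_mem, jacobiSum, map_sum]
  simp_rw [map_mul, h.mk_chi_pow ha.ne', h.mk_chi_pow hb.ne']
  apply sum_pow_mul_one_sub_pow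
  rw [h.card, ← mul_add]
  exact Nat.mul_lt_mul_of_pos_left hab h.k_pos

/-- A ring endomorphism raising `ζ` to the `t`-th power raises `χ` to the `t`-th power. -/
theorem ringHomComp_chi (σ : R →+* R) {t : ℕ} (ht : 0 < t) (hσ : σ ζ = ζ ^ t) :
    h.chi.ringHomComp σ = h.chi ^ t := by
  ext x
  rw [MulChar.ringHomComp_apply, MulChar.pow_apply' _ ht.ne']
  obtain ⟨i, hi, -⟩ := h.chi_spec (x := (x : R ⧸ Q)) x.ne_zero
  rw [hi, map_pow, hσ, ← pow_mul, ← pow_mul, mul_comm]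

theorem map_jacobiSum (σ : R →+* R) {t : ℕ} (ht : 0 < t) (hσ : σ ζ = ζ ^ t) :
    σ (jacobiSum h.chi h.chi) = jacobiSum (h.chi ^ t) (h.chi ^ t) := by
  rw [← jacobiSum_ringHomComp, h.ringHomComp_chi σ ht hσ]

/-- **Divisibility**: `σ_t⁻¹ Q` contains `J(χ, χ)` for `0 < t < p / 2`. -/
theorem jacobiSum_mem_comap (σ : R →+* R) {t : ℕ} (ht : 0 < t) (ht2 : 2 * t < p)
    (hσ : σ ζ = ζ ^ t) : jacobiSum h.chi h.chi ∈ Q.comap σ := by
  rw [Ideal.mem_comap, h.map_jacobiSum σ ht hσ]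
  exact h.jacobiSum_mem ht ht (by omega)

/-- `χ ^ p = 1`. -/
theorem chi_pow_prime : h.chi ^ p = 1 := by
  ext x
  rw [MulChar.pow_apply' _ h.prime.ne_zero, MulChar.one_apply_coe]
  obtain ⟨i, hi, -⟩ := h.chi_spec (x := (x : R ⧸ Q)) x.ne_zero
  rw [hi, ← pow_mul, mul_comm, pow_mul, h.pow_eq, one_pow]

/-- `χ⁻¹ = χ ^ (p - 1)`. -/
theorem chi_inv : h.chi⁻¹ = h.chi ^ (p - 1) := by
  rw [inv_eq_iff_eq_inv, eq_inv_iff_mul_eq_one, ← pow_succ',
    Nat.sub_add_cancel h.prime.one_le, h.chi_pow_prime]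

/-- `χ ^ a` is non-trivial for `0 < a < p`. -/
theorem chi_pow_ne_one {a : ℕ} (ha : 0 < a) (hap : a < p) : h.chi ^ a ≠ 1 := by
  intro h1
  have h2 : ∀ x : (R ⧸ Q)ˣ, x ^ (k * a) = 1 := by
    intro x
    have h3 := h.mk_chi_pow ha.ne' (x : R ⧸ Q)
    rw [h1, MulChar.one_apply_coe, map_one] at h3
    exact Units.ext (by rw [Units.val_pow_eq_pow_val, ← h3, Units.val_one])
  rw [FiniteField.forall_pow_eq_one_iff, h.card] at h2
  have h4 : p ∣ a := (Nat.mul_dvd_mul_iff_left h.k_pos).mp h2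
  exact absurd (Nat.le_of_dvd ha h4) (not_le.mpr hap)

/-- **`J J̄ = q`**: for an endomorphism `c` with `c ζ = ζ⁻¹` (and `p` odd). -/
theorem jacobiSum_mul_map {K' : Type*} [Field K'] (φ : R →+* K') (hφ : Function.Injective φ)
    (hchar : ringChar K' ≠ ringChar (R ⧸ Q)) (hp2 : p ≠ 2) (c : R →+* R)
    (hc : c ζ = ζ ^ (p - 1)) :
    jacobiSum h.chi h.chi * c (jacobiSum h.chi h.chi) = (Fintype.card (R ⧸ Q) : R) := by
  have hp3 : 2 < p := lt_of_le_of_ne h.prime.two_le (Ne.symm hp2)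
  have hχ : h.chi ≠ 1 := by
    have := h.chi_pow_ne_one (a := 1) one_pos (by omega)
    rwa [pow_one] at this
  have hχ2 : h.chi * h.chi ≠ 1 := by
    have := h.chi_pow_ne_one (a := 2) two_pos hp3
    rwa [pow_two] at this
  have hχ' : h.chi.ringHomComp φ ≠ 1 := (MulChar.ringHomComp_ne_one_iff hφ).mpr hχ
  have hχ2' : h.chi.ringHomComp φ * h.chi.ringHomComp φ ≠ 1 := by
    rw [← MulChar.ringHomComp_mul]
    exact (MulChar.ringHomComp_ne_one_iff hφ).mpr hχ2
  have key := jacobiSum_mul_jacobiSum_inv hchar hχ' hχ' hχ2'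
  rw [MulChar.ringHomComp_inv, jacobiSum_ringHomComp, jacobiSum_ringHomComp, h.chi_inv,
    ← h.map_jacobiSum c (by omega : 0 < p - 1) hc, ← map_mul, ← map_natCast φ] at key
  exact hφ key

theorem jacobiSum_ne_zero {K' : Type*} [Field K'] (φ : R →+* K') (hφ : Function.Injective φ)
    (hchar : ringChar K' ≠ ringChar (R ⧸ Q)) (hp2 : p ≠ 2) (c : R →+* R)
    (hc : c ζ = ζ ^ (p - 1)) (hq : (Fintype.card (R ⧸ Q) : R) ≠ 0) :
    jacobiSum h.chi h.chi ≠ 0 := by
  intro h0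
  have := h.jacobiSum_mul_map φ hφ hchar hp2 c hc
  rw [h0, zero_mul] at this
  exact hq this.symm

end ResData

/-- Construction of the data: `p ∣ q - 1` is automatic. -/
theorem resData_of (hp : p.Prime) (hζ : ζ ^ p = 1) (hne : Ideal.Quotient.mk Q ζ ≠ 1) :
    ResData Q p ζ ((Fintype.card (R ⧸ Q) - 1) / p) := by
  refine ⟨hp, hζ, hne, ?_⟩
  have := Fact.mk hp
  have h1 : (Ideal.Quotient.mk Q ζ) ^ p = 1 := by rw [← map_pow, hζ, map_one]
  have h2 : orderOf (Ideal.Quotient.mk Q ζ) = p := orderOf_eq_prime h1 hne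
  have h0 : Ideal.Quotient.mk Q ζ ≠ 0 := by
    intro h0
    rw [h0, zero_pow hp.ne_zero] at h1
    exact zero_ne_one h1
  have h3 : p ∣ Fintype.card (R ⧸ Q) - 1 := by
    rw [← h2]
    exact orderOf_dvd_of_pow_eq_one (FiniteField.pow_card_sub_one_eq_one _ h0)
  exact (Nat.div_mul_cancel h3).symm

end Char

end Fermat.Agent.S14x.Stk
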