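import Mathlib
import Fermat.Agent.S14x.Stk.Defs
import Fermat.Agent.S14x.Stk.H17_Jacobi

/-!
# S14 / STK-1 (helper17): the residue character and the congruence, in the shape of `Stk/Defs`

* `stChar : StChar p K Q q`
* `stCong : StCong p K Q q`
-/

set_option autoImplicit false
set_option linter.unusedSectionVars false
set_option linter.style.haveILetI false

open NumberField

namespace Fermat.Agent.S14x.Stk.H17

attribute [local instance] Ideal.Quotient.field

variable (p : ℕ) (K : Type) [Field K] [NumberField K] (Q : Ideal (𝓞 K)) (q : ℕ)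

theorem finite_quot (h : Setting p K Q q) : Finite (𝓞 K ⧸ Q) :=
  Nat.finite_of_card_ne_zero (by rw [h.card]; exact h.hq.ne_zero)

theorem fintype_card_eq (h : Setting p K Q q) [Fintype (𝓞 K ⧸ Q)] :
    Fintype.card (𝓞 K ⧸ Q) = q := by
  rw [← Nat.card_eq_fintype_card, h.card]

/-- The rational prime `p` is not in `Q`. -/
theorem natCast_notMem (h : Setting p K Q q) : (p : 𝓞 K) ∉ Q := by
  intro hpQ
  have := h.max
  have := finite_quot p K Q q h
  letI : Fintype (𝓞 K ⧸ Q) := Fintype.ofFinite _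
  have : Fact q.Prime := ⟨h.hq⟩
  have hchar : CharP (𝓞 K ⧸ Q) q := charP_of_card_eq_prime (fintype_card_eq p K Q q h)
  have h0 : ((p : ℕ) : 𝓞 K ⧸ Q) = 0 := by
    rw [← map_natCast (Ideal.Quotient.mk Q)]
    exact Ideal.Quotient.eq_zero_iff_mem.mpr hpQ
  have hdvd : q ∣ p := (CharP.cast_eq_zero_iff (𝓞 K ⧸ Q) q p).mp h0
  exact h.hqp ((Nat.prime_dvd_prime_iff_eq h.hq h.hp).mp hdvd)

/-- A primitive `p`-th root of unity in `𝓞 K` is not congruent to `1` modulo `Q`. -/
theorem mk_ne_one_of_isPrimitiveRoot (h : Setting p K Q q) {ζ : 𝓞 K} (hζ : IsPrimitiveRoot ζ p) :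
    Ideal.Quotient.mk Q ζ ≠ 1 := by
  have := h.cyc
  have : Fact p.Prime := ⟨h.hp⟩
  have : NeZero p := ⟨h.hp.ne_zero⟩
  intro h1
  have h2 : ζ - 1 ∈ Q := by
    rw [← Ideal.Quotient.eq_zero_iff_mem, map_sub, h1, map_one, sub_self]
  have hζK : IsPrimitiveRoot (ζ : K) p :=
    hζ.map_of_injective (RingOfIntegers.coe_injective (K := K))
  have h3 : hζK.toInteger - 1 ∣ (p : 𝓞 K) := hζK.toInteger_sub_one_dvd_prime'
  have h4 : hζK.toInteger = ζ := RingOfIntegers.ext rfl
  rw [h4] at h3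
  exact natCast_notMem p K Q q h (Q.mem_of_dvd h3 h2)

theorem exists_zeta (h : Setting p K Q q) :
    ∃ ζ : 𝓞 K, IsPrimitiveRoot ζ p ∧ Ideal.Quotient.mk Q ζ ≠ 1 := by
  have := h.cyc
  have : NeZero p := ⟨h.hp.ne_zero⟩
  have hζ := IsCyclotomicExtension.zeta_spec p ℚ K
  exact ⟨hζ.toInteger, hζ.toInteger_isPrimitiveRoot,
    mk_ne_one_of_isPrimitiveRoot p K Q q h hζ.toInteger_isPrimitiveRoot⟩

/-- The residue data attached to a `Setting` and a primitive root of unity. -/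
theorem resData (h : Setting p K Q q) [Q.IsMaximal] [Fintype (𝓞 K ⧸ Q)] {ζ : 𝓞 K}
    (hζ : IsPrimitiveRoot ζ p) : ResData Q p ζ ((q - 1) / p) := by
  have := resData_of (Q := Q) h.hp hζ.pow_eq_one (mk_ne_one_of_isPrimitiveRoot p K Q q h hζ)
  rwa [fintype_card_eq p K Q q h] at this

/-- `p ∣ q - 1`. -/
theorem dvd_sub_one (h : Setting p K Q q) : p ∣ q - 1 := by
  have := h.max
  have := finite_quot p K Q q h
  letI : Fintype (𝓞 K ⧸ Q) := Fintype.ofFinite _
  obtain ⟨ζ, hζ, -⟩ := exists_zeta p K Q q h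
  have hd := (resData p K Q q h hζ).card
  rw [fintype_card_eq p K Q q h] at hd
  exact Dvd.intro_left _ hd.symm

/-- [STK-1a] -/
theorem stChar : StChar p K Q q := by
  intro h
  have := h.max
  have := finite_quot p K Q q h
  letI : Fintype (𝓞 K ⧸ Q) := Fintype.ofFinite _
  have : Fact p.Prime := ⟨h.hp⟩
  obtain ⟨ζ, hζ, -⟩ := exists_zeta p K Q q h
  have hd := resData p K Q q h hζ
  refine ⟨hd.chi, ?_, fun x => hd.mk_chi x⟩
  refine orderOf_eq_prime hd.chi_pow_prime ?_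
  have := hd.chi_pow_ne_one (a := 1) one_pos h.hp.one_lt
  rwa [pow_one] at this

/-- [STK-1b] -/
theorem stCong : StCong p K Q q := by
  intro h _ χ hχ a b ha hb hab
  have := h.max
  obtain ⟨k, hk⟩ := dvd_sub_one p K Q q h
  have hkp : (q - 1) / p = k := by
    rw [hk]; exact Nat.mul_div_cancel_left k h.hp.pos
  have hk0 : 0 < k := by
    rcases Nat.eq_zero_or_pos k with h0 | h0
    · rw [h0, mul_zero] at hk
      have := h.hq.two_le
      omega
    · exact h0
  have hmk : ∀ (c : ℕ), c ≠ 0 → ∀ x : 𝓞 K ⧸ Q,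
      Ideal.Quotient.mk Q ((χ ^ c) x) = x ^ (k * c) := by
    intro c hc x
    rw [MulChar.pow_apply' _ hc, map_pow, hχ.2 x, hkp, pow_mul]
  rw [← Ideal.Quotient.eq_zero_iff_mem, jacobiSum, map_sum]
  simp_rw [map_mul, hmk a ha.ne', hmk b hb.ne']
  apply sum_pow_mul_one_sub_pow
  rw [fintype_card_eq p K Q q h, hk, ← mul_add, mul_comm p k]
  exact Nat.mul_lt_mul_of_pos_left hab hk0

end Fermat.Agent.S14x.Stk.H17
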