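import Fermat.Agent.S14x.Stk.Defs

/-!
# S14 / STK: assembly of the leaves (helper26)

`stStkAsm : StChar → StCong → StGal → StDist → StNorm → StStk`.
-/

set_option autoImplicit false
set_option linter.style.haveILetI false

open NumberField

noncomputable section

namespace Fermat.Agent.S14x.Stk.H26

variable {K : Type} [Field K] [NumberField K]

/-- The absolute norm of the inverse image of an ideal under a ring automorphism. -/
theorem absNorm_comap_equiv (e : 𝓞 K ≃+* 𝓞 K) (I : Ideal (𝓞 K)) :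
    Ideal.absNorm (Ideal.comap (e : 𝓞 K →+* 𝓞 K) I) = Ideal.absNorm I := by
  have h1 : I = (Ideal.comap (e : 𝓞 K →+* 𝓞 K) I).map (e : 𝓞 K →+* 𝓞 K) :=
    (Ideal.map_comap_of_surjective (e : 𝓞 K →+* 𝓞 K) e.surjective I).symm
  have e' : (𝓞 K ⧸ Ideal.comap (e : 𝓞 K →+* 𝓞 K) I) ≃+* (𝓞 K ⧸ I) :=
    Ideal.quotientEquiv _ _ e h1
  rw [Ideal.absNorm_apply, Ideal.absNorm_apply, Submodule.cardQuot_apply,
    Submodule.cardQuot_apply]
  exact Nat.card_congr e'.toEquiv

/-- In a ring of integers: if `I ≤ J` and the absolute norms agree and are nonzero, then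
`I = J`. -/
theorem eq_of_le_of_absNorm_eq {I J : Ideal (𝓞 K)} (hle : I ≤ J)
    (hn : Ideal.absNorm I = Ideal.absNorm J) (h0 : Ideal.absNorm I ≠ 0) : I = J := by
  obtain ⟨C, hC⟩ := Ideal.dvd_iff_le.mpr hle
  have h1 : Ideal.absNorm I = Ideal.absNorm J * Ideal.absNorm C := by rw [hC, map_mul]
  have hJ0 : Ideal.absNorm J ≠ 0 := hn ▸ h0
  have h2 : Ideal.absNorm C = 1 := by
    have : Ideal.absNorm J * Ideal.absNorm C = Ideal.absNorm J * 1 := by
      rw [mul_one, ← h1, hn]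
    exact Nat.eq_of_mul_eq_mul_left (Nat.pos_of_ne_zero hJ0) this
  rw [Ideal.absNorm_eq_one_iff] at h2
  rw [hC, h2, Ideal.mul_top]

variable (p : ℕ) (K) (Q : Ideal (𝓞 K)) (q : ℕ)

/-- **Assembly of STK**. -/
theorem stStkAsm : StStkAsm p K Q q := by
  intro hChar hCong hGal hDist hNorm hS τ hτ
  classical
  haveI := hS.cyc
  haveI := hS.max
  haveI : Fact p.Prime := ⟨hS.hp⟩
  haveI : NeZero p := ⟨hS.hp.ne_zero⟩
  have hfin : Finite (𝓞 K ⧸ Q) := Nat.finite_of_card_ne_zero (by rw [hS.card]; exact hS.hq.ne_zero)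
  letI : Fintype (𝓞 K ⧸ Q) := Fintype.ofFinite _
  obtain ⟨χ, hχ⟩ := hChar hS
  have hχp : χ ^ p = 1 := by rw [← hχ.1]; exact pow_orderOf_eq_one χ
  -- a primitive root of unity
  obtain ⟨ζ, hζ⟩ := IsCyclotomicExtension.exists_isPrimitiveRoot ℚ K (S := {p}) rfl
    (hS.hp.ne_zero)
  set J : 𝓞 K := jacobiSum χ χ with hJ
  set P : ℕ → Ideal (𝓞 K) := fun a => Ideal.comap (resO K (τ a)) Q with hP
  have hPmax : ∀ a, (P a).IsMaximal := fun a => Ideal.comap_isMaximal_of_equiv (resO K (τ a))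
  -- `J ∈ P a`
  have hmem : ∀ a ∈ Finset.Icc 1 ((p - 1) / 2), J ∈ P a := by
    intro a ha
    have ha' := Finset.mem_Icc.mp ha
    show resO K (τ a) J ∈ Q
    rw [hJ, hGal hS χ hχp (τ a) a ζ hζ (hτ a ha ζ hζ)]
    exact hCong hS χ hχ a a ha'.1 ha'.1 (by have := hS.hp3; omega)
  -- distinctness
  have hdist : ∀ a ∈ Finset.Icc 1 ((p - 1) / 2), ∀ b ∈ Finset.Icc 1 ((p - 1) / 2),
      P a = P b → a = b := by
    intro a ha b hb hab
    have ha' := Finset.mem_Icc.mp ha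
    have hb' := Finset.mem_Icc.mp hb
    have h1 : τ a = τ b := hDist hS (τ a) (τ b) hab
    have h2 : ζ ^ a = ζ ^ b := by rw [← hτ a ha ζ hζ, ← hτ b hb ζ hζ, h1]
    have h3 := hζ.pow_inj (by have := hS.hp3; omega) (by have := hS.hp3; omega) h2
    exact h3
  -- the norm
  have hnorm : Ideal.absNorm (Ideal.span {J}) = q ^ ((p - 1) / 2) := hNorm hS χ hχ
  have hq0 : q ^ ((p - 1) / 2) ≠ 0 := pow_ne_zero _ hS.hq.ne_zero
  have hJ0 : J ≠ 0 := by
    intro h0
    rw [h0, Ideal.span_singleton_eq_bot.mpr rfl, Ideal.absNorm_bot] at hnorm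
    exact hq0 hnorm.symm
  refine ⟨J, hJ0, ?_⟩
  -- `span {J} ≤ ∏ P a`
  have hdvd : (∏ a ∈ Finset.Icc 1 ((p - 1) / 2), P a) ∣ Ideal.span {J} := by
    apply Finset.prod_dvd_of_coprime
    · intro a ha b hb hab
      rw [Function.onFun, Ideal.isCoprime_iff_sup_eq]
      exact Ideal.IsMaximal.coprime_of_ne (hPmax a) (hPmax b)
        (fun h => hab (hdist a ha b hb h))
    · intro a ha
      rw [Ideal.dvd_iff_le, Ideal.span_singleton_le_iff_mem]
      exact hmem a ha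
  have hle : Ideal.span {J} ≤ ∏ a ∈ Finset.Icc 1 ((p - 1) / 2), P a := Ideal.dvd_iff_le.mp hdvd
  have hnP : Ideal.absNorm (∏ a ∈ Finset.Icc 1 ((p - 1) / 2), P a) = q ^ ((p - 1) / 2) := by
    rw [map_prod]
    have : ∀ a ∈ Finset.Icc 1 ((p - 1) / 2), Ideal.absNorm (P a) = q := by
      intro a _
      have h1 := absNorm_comap_equiv (K := K) (resO K (τ a)).toRingEquiv Q
      have h2 : Ideal.absNorm Q = q := by
        rw [Ideal.absNorm_apply, Submodule.cardQuot_apply]; exact hS.card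
      rw [h2] at h1
      exact h1
    rw [Finset.prod_congr rfl this, Finset.prod_const, Nat.card_Icc]
    simp
  exact eq_of_le_of_absNorm_eq hle (by rw [hnorm, hnP]) (by rw [hnorm]; exact hq0)

end Fermat.Agent.S14x.Stk.H26
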