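import Fermat.Agent.S14x.Stk.H7_PowerSum

/-!
# S14 / STK (helper7): the `p`-th power residue character and the Jacobi sum modulo `Q`

Abstract setting: `π : A →+* F` a ring homomorphism onto (or into) a finite field `F`, `ζ ∈ A` with
`ζ ^ p = 1` and `π ζ ≠ 1` (`p` prime).  Then `p ∣ #F - 1` and there is a multiplicative character
`χ : F → A` with values in `{0} ∪ {ζ ^ i}` such that `π (χ x) = x ^ ((#F - 1) / p)`.

For a ring endomorphism `σ` of `A` with `σ ζ = ζ ^ t`, `1 ≤ t`, `2 t < p`, the conjugate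
`σ (J(χ, χ))` of the Jacobi sum lies in the kernel of `π`.
-/

set_option autoImplicit false

namespace Fermat.Agent.S14x.Stk.H7

open Finset

section Char

variable {A F : Type*} [CommRing A] [Field F] [Fintype F] (π : A →+* F) (p : ℕ)

/-- The properties of the power residue character. -/
structure IsResChar (ζ : A) (χ : MulChar F A) : Prop where
  /-- `χ x ≡ x ^ ((#F - 1) / p)` modulo the kernel of `π` -/
  red : ∀ x : F, π (χ x) = x ^ ((Fintype.card F - 1) / p)
  /-- the nonzero values are powers of `ζ` -/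
  val : ∀ x : F, x ≠ 0 → ∃ i : ℕ, χ x = ζ ^ i

variable {π p}

theorem dvd_card_sub_one (hp : p.Prime) {ζ : A} (hζ : ζ ^ p = 1) (hπζ : π ζ ≠ 1) :
    p ∣ Fintype.card F - 1 := by
  classical
  have : Fact p.Prime := ⟨hp⟩
  have hz : (π ζ) ^ p = 1 := by rw [← map_pow, hζ, map_one]
  set zu : Fˣ := Units.ofPowEqOne (π ζ) p hz hp.ne_zero with hzu
  have hzu1 : zu ≠ 1 := by
    intro h
    apply hπζ
    have := congrArg (fun u : Fˣ => (u : F)) h
    simpa [hzu] using this
  have hzup : zu ^ p = 1 := Units.pow_ofPowEqOne hz hp.ne_zero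
  have hord : orderOf zu = p := orderOf_eq_prime hzup hzu1
  rw [← Fintype.card_units, ← hord]
  exact orderOf_dvd_card

theorem exists_isResChar (hp : p.Prime) {ζ : A} (hζ : ζ ^ p = 1) (hπζ : π ζ ≠ 1) :
    ∃ χ : MulChar F A, IsResChar π p ζ χ := by
  classical
  have : NeZero p := ⟨hp.ne_zero⟩
  have : Fact p.Prime := ⟨hp⟩
  have hdvd := dvd_card_sub_one (π := π) hp hζ hπζ
  set k := (Fintype.card F - 1) / p with hk
  have hkp : p * k = Fintype.card F - 1 := Nat.mul_div_cancel' hdvd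
  have hq1 : 0 < Fintype.card F - 1 := by
    have := Fintype.one_lt_card (α := F)
    omega
  have hk0 : k ≠ 0 := by
    rintro h0
    rw [h0, mul_zero] at hkp
    omega
  -- the units
  set ζu : Aˣ := Units.ofPowEqOne ζ p hζ hp.ne_zero with hζu
  have hζup : ζu ^ p = 1 := Units.pow_ofPowEqOne hζ hp.ne_zero
  have hζuval : (ζu : A) = ζ := rfl
  set zu : Fˣ := Units.map (π : A →* F) ζu with hzu
  have hzuval : (zu : F) = π ζ := rfl
  have hzu1 : zu ≠ 1 := by
    intro h
    apply hπζ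
    have := congrArg (fun u : Fˣ => (u : F)) h
    simpa [hzuval] using this
  have hzup : zu ^ p = 1 := by rw [hzu, ← map_pow, hζup, map_one]
  have hord : orderOf zu = p := orderOf_eq_prime hzup hzu1
  have hprim : IsPrimitiveRoot zu p := IsPrimitiveRoot.iff_orderOf.mpr hord
  -- a generator of `Fˣ`
  obtain ⟨g, hg⟩ := IsCyclic.exists_generator (α := Fˣ)
  have hgord : orderOf g = Fintype.card F - 1 := by
    rw [orderOf_eq_card_of_forall_mem_zpowers hg, Nat.card_eq_fintype_card, Fintype.card_units]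
  -- `g ^ k` is a power of `zu`
  have hgk : g ^ k ∈ Subgroup.zpowers zu := by
    rw [hprim.zpowers_eq, mem_rootsOfUnity, ← pow_mul, mul_comm, hkp, ← hgord]
    exact pow_orderOf_eq_one g
  obtain ⟨c, hc⟩ := Subgroup.mem_zpowers_iff.mp hgk
  have hdvd' : orderOf (ζu ^ c) ∣ orderOf g := by
    rw [hgord]
    refine dvd_trans (orderOf_dvd_of_pow_eq_one ?_) hdvd
    rw [← zpow_natCast, ← zpow_mul, mul_comm, zpow_mul, zpow_natCast, hζup, one_zpow]
  set φ : Fˣ →* Aˣ := monoidHomOfForallMemZpowers hg hdvd' with hφ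
  have hφg : φ g = ζu ^ c := monoidHomOfForallMemZpowers_apply_gen hg hdvd'
  have hcomp : (Units.map (π : A →* F)).comp φ = powMonoidHom k := by
    rw [MonoidHom.eq_iff_eq_on_generator hg]
    rw [MonoidHom.comp_apply, hφg, map_zpow, ← hzu, hc]
    rfl
  refine ⟨MulChar.ofUnitHom φ, ?_, ?_⟩
  · intro x
    by_cases hx : x = 0
    · subst hx
      rw [MulChar.map_zero, map_zero, zero_pow hk0]
    · obtain ⟨u, rfl⟩ : ∃ u : Fˣ, (u : F) = x := ⟨Units.mk0 x hx, rfl⟩
      rw [MulChar.ofUnitHom_coe]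
      have h1 := congrArg (fun f : Fˣ →* Fˣ => ((f u : Fˣ) : F)) hcomp
      simpa using h1
  · intro x hx
    obtain ⟨u, rfl⟩ : ∃ u : Fˣ, (u : F) = x := ⟨Units.mk0 x hx, rfl⟩
    rw [MulChar.ofUnitHom_coe]
    obtain ⟨n, hn⟩ := Subgroup.mem_zpowers_iff.mp (hg u)
    have h1 : φ u = ζu ^ (c * n) := by
      rw [← hn, map_zpow, hφg, zpow_mul]
    have hp0 : (p : ℤ) ≠ 0 := by exact_mod_cast hp.ne_zero
    have h2 : ζu ^ (c * n) = ζu ^ ((c * n) % (p : ℤ)).toNat := by
      have hmod : 0 ≤ (c * n) % (p : ℤ) := Int.emod_nonneg _ hp0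
      conv_lhs => rw [← Int.emod_add_mul_ediv (c * n) (p : ℤ)]
      rw [zpow_add, zpow_mul, zpow_natCast, hζup, one_zpow, mul_one]
      conv_lhs => rw [← Int.toNat_of_nonneg hmod]
      rw [zpow_natCast]
    refine ⟨((c * n) % (p : ℤ)).toNat, ?_⟩
    rw [h1, h2, Units.val_pow_eq_pow_val, hζuval]

end Char

section Jacobi

variable {A F : Type*} [CommRing A] [Field F] [Fintype F] {π : A →+* F} {p : ℕ}

/-- A ring endomorphism `σ` with `σ ζ = ζ ^ t`, `1 ≤ t`, raises the values of `χ` to the `t`-th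
power. -/
theorem IsResChar.map_apply {ζ : A} {χ : MulChar F A} (h : IsResChar π p ζ χ)
    (σ : A →+* A) {t : ℕ} (ht : 1 ≤ t) (hσ : σ ζ = ζ ^ t) (x : F) : σ (χ x) = χ x ^ t := by
  by_cases hx : x = 0
  · subst hx
    rw [MulChar.map_zero, map_zero, zero_pow (by omega)]
  · obtain ⟨i, hi⟩ := h.val x hx
    rw [hi, map_pow, hσ, ← pow_mul, ← pow_mul, mul_comm]

/-- **The Jacobi sum modulo `Q`.** For `1 ≤ t`, `2 t < p` and `σ ζ = ζ ^ t`, the conjugate
`σ (J(χ, χ))` lies in the kernel of `π`. -/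
theorem IsResChar.map_jacobiSum_mem_ker {ζ : A} {χ : MulChar F A}
    (h : IsResChar π p ζ χ) (hdvd : p ∣ Fintype.card F - 1) (σ : A →+* A) {t : ℕ}
    (ht1 : 1 ≤ t) (ht : 2 * t < p) (hσ : σ ζ = ζ ^ t) : π (σ (jacobiSum χ χ)) = 0 := by
  set k := (Fintype.card F - 1) / p with hk
  have hkp : p * k = Fintype.card F - 1 := Nat.mul_div_cancel' hdvd
  have hq1 : 0 < Fintype.card F - 1 := by
    have := Fintype.one_lt_card (α := F)
    omega
  have hk0 : 0 < k := by
    rcases Nat.eq_zero_or_pos k with h0 | h0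
    · rw [h0, mul_zero] at hkp
      omega
    · exact h0
  rw [jacobiSum, map_sum, map_sum]
  have hterm : ∀ x : F, π (σ (χ x * χ (1 - x))) = x ^ (k * t) * (1 - x) ^ (k * t) := by
    intro x
    rw [map_mul, map_mul, h.map_apply σ ht1 hσ, h.map_apply σ ht1 hσ, map_pow, map_pow, h.red,
      h.red, ← pow_mul, ← pow_mul]
  rw [Finset.sum_congr rfl fun x _ => hterm x]
  apply sum_pow_mul_one_sub_pow
  rw [← hkp]
  have : k * t + k * t = k * (2 * t) := by ring
  rw [this, mul_comm p k]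
  exact Nat.mul_lt_mul_of_pos_left ht hk0

end Jacobi

end Fermat.Agent.S14x.Stk.H7
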