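import Fermat.Agent.S14x.Stk.H7_Char

/-!
# S14 / STK (helper7): the prime factorisation of the Jacobi sum in `ℤ[ζ_p]`

`K` a number field of degree `p - 1` over `ℚ` containing a primitive `p`-th root of unity `ζ`
(`p` an odd prime), `σ t` the automorphism of `𝓞 K` with `σ t ζ = ζ ^ t`, `Q` a prime of `𝓞 K` of
degree one over a prime `q ≠ p`.  Then the ideal `∏_{1 ≤ t ≤ (p-1)/2} σ_t⁻¹ Q` is principal,
generated by the Jacobi sum `J(χ, χ)` of the `p`-th power residue character modulo `Q`.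
-/

set_option autoImplicit false
set_option linter.unusedSectionVars false

namespace Fermat.Agent.S14x.Stk.H7

open Finset NumberField

section Setup

variable {K : Type*} [Field K] [NumberField K] {p q : ℕ}

theorem finite_quot_of_card (Q : Ideal (𝓞 K)) (hq : q.Prime) (hcard : Nat.card (𝓞 K ⧸ Q) = q) :
    Finite (𝓞 K ⧸ Q) :=
  Nat.finite_of_card_ne_zero (by rw [hcard]; exact hq.ne_zero)

theorem isMaximal_of_card (Q : Ideal (𝓞 K)) [Q.IsPrime] (hq : q.Prime)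
    (hcard : Nat.card (𝓞 K ⧸ Q) = q) : Q.IsMaximal := by
  have := finite_quot_of_card Q hq hcard
  exact Ideal.Quotient.maximal_of_isField Q (Finite.isField_of_domain (𝓞 K ⧸ Q))

/-- `q ∈ Q`. -/
theorem natCast_mem_of_card (Q : Ideal (𝓞 K)) (hq : q.Prime) (hcard : Nat.card (𝓞 K ⧸ Q) = q) :
    (q : 𝓞 K) ∈ Q := by
  have := finite_quot_of_card Q hq hcard
  rw [← Ideal.Quotient.eq_zero_iff_mem, map_natCast, ← hcard]
  have h := card_nsmul_eq_zero' (G := 𝓞 K ⧸ Q) (x := 1)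
  rwa [nsmul_one] at h

/-- every element of `𝓞 K` is congruent to a natural number modulo a prime of degree one. -/
theorem exists_natCast_sub_mem (Q : Ideal (𝓞 K)) (hq : q.Prime)
    (hcard : Nat.card (𝓞 K ⧸ Q) = q) (x : 𝓞 K) : ∃ n : ℕ, x - (n : 𝓞 K) ∈ Q := by
  classical
  have := finite_quot_of_card Q hq hcard
  let _ : Fintype (𝓞 K ⧸ Q) := Fintype.ofFinite _
  have hcard' : Fintype.card (𝓞 K ⧸ Q) = q := by rw [← Nat.card_eq_fintype_card, hcard]
  let e := ZMod.ringEquivOfPrime (𝓞 K ⧸ Q) hq hcard'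
  have : NeZero q := ⟨hq.ne_zero⟩
  refine ⟨(e.symm (Ideal.Quotient.mk Q x)).val, ?_⟩
  rw [← Ideal.Quotient.eq_zero_iff_mem, map_sub, map_natCast, sub_eq_zero]
  have h1 : e ((e.symm (Ideal.Quotient.mk Q x)).val : ZMod q) = ((e.symm (Ideal.Quotient.mk Q x)).val : 𝓞 K ⧸ Q) :=
    map_natCast e _
  rw [← h1, ZMod.natCast_zmod_val, RingEquiv.apply_symm_apply]

/-- `p ∉ Q` for a prime `Q` over `q ≠ p`. -/
theorem natCast_notMem (Q : Ideal (𝓞 K)) [Q.IsPrime] (hp : p.Prime) (hq : q.Prime) (hqp : q ≠ p)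
    (hcard : Nat.card (𝓞 K ⧸ Q) = q) : (p : 𝓞 K) ∉ Q := by
  intro hpQ
  have hqQ := natCast_mem_of_card Q hq hcard
  have hco : Nat.Coprime p q := (Nat.coprime_primes hp hq).mpr (Ne.symm hqp)
  have hone : (1 : 𝓞 K) ∈ Q := by
    have hb := Nat.Coprime.isCoprime hco
    obtain ⟨a, b, hab⟩ := hb
    have : ((a * p + b * q : ℤ) : 𝓞 K) ∈ Q := by
      push_cast
      exact Q.add_mem (Q.mul_mem_left _ hpQ) (Q.mul_mem_left _ hqQ)
    rw [hab] at this
    simpa using this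
  exact (Ideal.IsPrime.ne_top inferInstance) ((Ideal.eq_top_iff_one Q).mpr hone)

/-- The reduction of a primitive `p`-th root of unity modulo `Q` is not `1`; more generally
`ζ ^ a ≡ ζ ^ b` modulo `Q` forces `a ≡ b` modulo `p`. -/
theorem pow_sub_pow_notMem (Q : Ideal (𝓞 K)) [Q.IsPrime] (hp : p.Prime) (hq : q.Prime)
    (hqp : q ≠ p) (hcard : Nat.card (𝓞 K ⧸ Q) = q) {ζ : 𝓞 K} (hζ : IsPrimitiveRoot ζ p)
    {a b : ℕ} (hab : a < b) (hb : b < a + p) : ζ ^ b - ζ ^ a ∉ Q := by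
  intro hmem
  -- `ζ ^ (b - a) - 1 ∈ Q`
  have hunit : IsUnit (ζ ^ a) := (hζ.isUnit hp.ne_zero).pow a
  have h1 : ζ ^ (b - a) - 1 ∈ Q := by
    have h2 : ζ ^ b - ζ ^ a = ζ ^ a * (ζ ^ (b - a) - 1) := by
      rw [mul_sub, mul_one, ← pow_add]
      congr 2
      omega
    rw [h2] at hmem
    rcases (Ideal.IsPrime.mem_or_mem inferInstance hmem) with h | h
    · exact absurd (Q.eq_top_of_isUnit_mem h hunit) (Ideal.IsPrime.ne_top inferInstance)
    · exact h
  set d := b - a with hd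
  have hd1 : 1 ≤ d := by omega
  have hdp : d < p := by omega
  -- `p = ∏ (1 - ζ ^ (k + 1))`
  obtain ⟨n, rfl⟩ : ∃ n, p = n + 1 := ⟨p - 1, by have := hp.pos; omega⟩
  have hprod := hζ.prod_one_sub_pow_eq_order
  apply natCast_notMem Q hp hq hqp hcard
  rw [Nat.cast_add, Nat.cast_one, ← hprod]
  have hmemr : d - 1 ∈ Finset.range n := Finset.mem_range.mpr (by omega)
  refine Ideal.mem_of_dvd Q (Finset.dvd_prod_of_mem (fun k => (1 : 𝓞 K) - ζ ^ (k + 1)) hmemr) ?_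
  have : d - 1 + 1 = d := by omega
  rw [this]
  have h3 : (1 : 𝓞 K) - ζ ^ d = -(ζ ^ d - 1) := by ring
  rw [h3]
  exact Q.neg_mem h1

end Setup

section Main

variable {K : Type*} [Field K] [NumberField K] {p q : ℕ} (Q : Ideal (𝓞 K)) [Q.IsPrime]

/-- **Distinctness of the conjugates**: the decomposition group of a degree-one prime `Q ∤ p` is
trivial. -/
theorem comap_ne_comap (hp : p.Prime) (hq : q.Prime) (hqp : q ≠ p)
    (hcard : Nat.card (𝓞 K ⧸ Q) = q) {ζ : 𝓞 K} (hζ : IsPrimitiveRoot ζ p)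
    (σ τ : 𝓞 K →+* 𝓞 K) {s t : ℕ} (hst : s < t) (ht : t < s + p)
    (hσ : σ ζ = ζ ^ s) (hτ : τ ζ = ζ ^ t) : Q.comap σ ≠ Q.comap τ := by
  intro heq
  obtain ⟨n, hn⟩ := exists_natCast_sub_mem Q hq hcard (σ ζ)
  have h1 : ζ - (n : 𝓞 K) ∈ Q.comap σ := by
    rw [Ideal.mem_comap, map_sub, map_natCast]
    exact hn
  rw [heq, Ideal.mem_comap, map_sub, map_natCast, hτ] at h1
  rw [hσ] at hn
  have h2 : ζ ^ t - ζ ^ s ∈ Q := by
    have := Q.sub_mem h1 hn
    simpa using this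
  exact pow_sub_pow_notMem Q hp hq hqp hcard hζ hst ht h2

/-- The absolute norm of a conjugate of `Q`. -/
theorem absNorm_comap (σ : 𝓞 K ≃+* 𝓞 K) :
    Ideal.absNorm (Q.comap (σ : 𝓞 K →+* 𝓞 K)) = Ideal.absNorm Q := by
  rw [Ideal.absNorm_apply, Ideal.absNorm_apply, Submodule.cardQuot_apply,
    Submodule.cardQuot_apply]
  have hmap : Q = (Q.comap (σ : 𝓞 K →+* 𝓞 K)).map (σ : 𝓞 K →+* 𝓞 K) :=
    (Ideal.map_comap_of_surjective _ σ.surjective Q).symm
  exact Nat.card_congr (Ideal.quotientEquiv _ _ σ hmap).toEquiv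

/-- **The Jacobi sum**: there are `J, J' ∈ 𝓞 K` with `J * J' = q`, every conjugate `σ_t J`
(`1 ≤ t`, `2 t < p`) lies in `Q`, and `J' = σ_{p-1} J` is the complex conjugate of `J`. -/
theorem exists_jacobi (hp : p.Prime) (hp2 : p ≠ 2) (hq : q.Prime) (hqp : q ≠ p)
    (hcard : Nat.card (𝓞 K ⧸ Q) = q) {ζ : 𝓞 K} (hζ : IsPrimitiveRoot ζ p) :
    ∃ J J' : 𝓞 K, J * J' = (q : 𝓞 K) ∧
      (∀ (σ : 𝓞 K →+* 𝓞 K) (t : ℕ), 1 ≤ t → 2 * t < p → σ ζ = ζ ^ t → σ J ∈ Q) ∧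
      (∀ σ : 𝓞 K →+* 𝓞 K, σ ζ = ζ ^ (p - 1) → σ J = J') := by
  classical
  have hfin := finite_quot_of_card Q hq hcard
  have hmax := isMaximal_of_card Q hq hcard
  let _ : Field (𝓞 K ⧸ Q) := Ideal.Quotient.field Q
  let _ : Fintype (𝓞 K ⧸ Q) := Fintype.ofFinite _
  have hcardF : Fintype.card (𝓞 K ⧸ Q) = q := by rw [← Nat.card_eq_fintype_card, hcard]
  have hp3 : 3 ≤ p := by
    have := hp.two_le
    omega
  set π : 𝓞 K →+* (𝓞 K ⧸ Q) := Ideal.Quotient.mk Q with hπ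
  have hζp : ζ ^ p = 1 := hζ.pow_eq_one
  have hπζ : π ζ ≠ 1 := by
    intro h
    have h1 : ζ ^ 1 - ζ ^ 0 ∈ Q := by
      rw [pow_one, pow_zero, ← Ideal.Quotient.eq_zero_iff_mem, map_sub, map_one, sub_eq_zero]
      exact h
    exact pow_sub_pow_notMem Q hp hq hqp hcard hζ (by omega) (by omega) h1
  obtain ⟨χ, hχ⟩ := exists_isResChar (π := π) hp hζp hπζ
  have hdvd := dvd_card_sub_one (π := π) hp hζp hπζ
  set k := (Fintype.card (𝓞 K ⧸ Q) - 1) / p with hk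
  have hkp : p * k = Fintype.card (𝓞 K ⧸ Q) - 1 := Nat.mul_div_cancel' hdvd
  have hq1 : 0 < Fintype.card (𝓞 K ⧸ Q) - 1 := by
    have := Fintype.one_lt_card (α := 𝓞 K ⧸ Q)
    omega
  have hk0 : 0 < k := by
    rcases Nat.eq_zero_or_pos k with h0 | h0
    · rw [h0, mul_zero] at hkp
      omega
    · exact h0
  -- `χ ^ m ≠ 1` for `1 ≤ m < p`
  have hne : ∀ m : ℕ, 1 ≤ m → m < p → χ ^ m ≠ 1 := by
    intro m hm1 hmp h1
    have hall : ∀ x : (𝓞 K ⧸ Q)ˣ, x ^ (k * m) = 1 := by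
      intro x
      have h2 : (χ ^ m) (x : 𝓞 K ⧸ Q) = 1 := by rw [h1, MulChar.one_apply_coe]
      rw [MulChar.pow_apply_coe] at h2
      have h3 := congrArg π h2
      rw [map_pow, hχ.red, map_one, ← pow_mul] at h3
      exact Units.ext (by simpa using h3)
    have h4 := (FiniteField.forall_pow_eq_one_iff (𝓞 K ⧸ Q) (k * m)).mp hall
    rw [← hkp, mul_comm p k] at h4
    have h5 : p ∣ m := (Nat.mul_dvd_mul_iff_left hk0).mp h4
    exact absurd (Nat.le_of_dvd (by omega) h5) (by omega)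
  -- `χ ^ p = 1`
  have hpow : χ ^ p = 1 := by
    ext x
    rw [MulChar.pow_apply_coe, MulChar.one_apply_coe]
    obtain ⟨i, hi⟩ := hχ.val (x : 𝓞 K ⧸ Q) x.ne_zero
    rw [hi, ← pow_mul, mul_comm, pow_mul, hζp, one_pow]
  set ι : 𝓞 K →+* K := algebraMap (𝓞 K) K with hι
  have hιinj : Function.Injective ι := RingOfIntegers.coe_injective
  set χK : MulChar (𝓞 K ⧸ Q) K := χ.ringHomComp ι with hχK
  have hχK1 : χK ≠ 1 := by
    rw [hχK, MulChar.ringHomComp_ne_one_iff hιinj]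
    have := hne 1 le_rfl (by omega)
    rwa [pow_one] at this
  have hχK2 : χK * χK ≠ 1 := by
    rw [hχK, ← MulChar.ringHomComp_mul, MulChar.ringHomComp_ne_one_iff hιinj, ← pow_two]
    exact hne 2 (by omega) (by omega)
  have hinv : χK⁻¹ = (χ ^ (p - 1)).ringHomComp ι := by
    rw [← MulChar.ringHomComp_pow, ← hχK]
    apply inv_eq_of_mul_eq_one_left
    rw [← pow_succ, Nat.sub_add_cancel hp.one_le, hχK, MulChar.ringHomComp_pow, hpow,
      MulChar.ringHomComp_one]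
  have hchar : ringChar K ≠ ringChar (𝓞 K ⧸ Q) := by
    have hF : CharP (𝓞 K ⧸ Q) q := by
      have : Fact q.Prime := ⟨hq⟩
      exact charP_of_card_eq_prime hcardF
    rw [ringChar.eq_zero, ringChar.eq (𝓞 K ⧸ Q) q]
    exact hq.ne_zero.symm
  have hJJ := jacobiSum_mul_jacobiSum_inv hchar hχK1 hχK1 hχK2
  rw [hinv, hχK, jacobiSum_ringHomComp, jacobiSum_ringHomComp, hcardF, ← map_mul,
    ← map_natCast ι] at hJJ
  refine ⟨jacobiSum χ χ, jacobiSum (χ ^ (p - 1)) (χ ^ (p - 1)), hιinj hJJ, ?_, ?_⟩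
  · intro σ t ht1 ht hσ
    rw [← Ideal.Quotient.eq_zero_iff_mem]
    exact hχ.map_jacobiSum_mem_ker hdvd σ ht1 ht hσ
  · intro σ hσ
    rw [jacobiSum, jacobiSum, map_sum]
    refine Finset.sum_congr rfl fun x _ => ?_
    have hp1 : p - 1 ≠ 0 := by omega
    rw [map_mul, hχ.map_apply σ (by omega) hσ, hχ.map_apply σ (by omega) hσ,
      MulChar.pow_apply' χ hp1, MulChar.pow_apply' χ hp1]

/-- **(S) Stickelberger for the Jacobi sum.**  Let `K` be a number field of degree `p - 1`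
containing a primitive `p`-th root of unity `ζ` (`p` an odd prime), `σ t` automorphisms of `𝓞 K`
with `σ t ζ = ζ ^ t`, and `Q` a prime of `𝓞 K` with `#(𝓞 K / Q) = q` a prime `≠ p`.  Then
`∏_{1 ≤ t ≤ (p-1)/2} σ_t⁻¹ Q` is a principal ideal. -/
theorem stk_main (hp : p.Prime) (hp2 : p ≠ 2) (hq : q.Prime) (hqp : q ≠ p)
    (hcard : Nat.card (𝓞 K ⧸ Q) = q) (hdeg : Module.finrank ℚ K = p - 1)
    {ζ : 𝓞 K} (hζ : IsPrimitiveRoot ζ p) (σ : ℕ → (𝓞 K ≃+* 𝓞 K))
    (hσ : ∀ t, 1 ≤ t → t < p → σ t ζ = ζ ^ t) :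
    ∃ J : 𝓞 K, J ≠ 0 ∧
      Ideal.span {J} = ∏ t ∈ Finset.Icc 1 ((p - 1) / 2), Q.comap (σ t : 𝓞 K →+* 𝓞 K) := by
  classical
  have hmax := isMaximal_of_card Q hq hcard
  have hp3 : 3 ≤ p := by
    have := hp.two_le
    omega
  obtain ⟨h, hh⟩ : ∃ h, p - 1 = 2 * h := by
    rcases hp.eq_two_or_odd' with h2 | hodd
    · exact absurd h2 hp2
    · obtain ⟨m, hm⟩ := hodd
      exact ⟨m, by omega⟩
  have hhalf : (p - 1) / 2 = h := by omega
  have hh1 : 1 ≤ h := by omega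
  obtain ⟨J, J', hJJ, hmem, hconj⟩ := exists_jacobi Q hp hp2 hq hqp hcard hζ
  have hJ' : σ (p - 1) J = J' :=
    hconj (σ (p - 1) : 𝓞 K →+* 𝓞 K) (hσ (p - 1) (by omega) (by omega))
  -- the norm of `J`
  have hN1 : Algebra.norm ℤ J' = Algebra.norm ℤ J := by
    rw [← hJ']
    exact Algebra.norm_eq_of_algEquiv (σ (p - 1)).toIntAlgEquiv J
  have hN2 : Algebra.norm ℤ J * Algebra.norm ℤ J' = (q : ℤ) ^ (p - 1) := by
    rw [← map_mul, hJJ]
    have h1 : (q : 𝓞 K) = algebraMap ℤ (𝓞 K) (q : ℤ) := by simp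
    rw [h1, Algebra.norm_algebraMap, RingOfIntegers.rank, hdeg]
  have hN3 : (Algebra.norm ℤ J).natAbs = q ^ h := by
    rw [hN1, hh] at hN2
    have h1 : (Algebra.norm ℤ J).natAbs * (Algebra.norm ℤ J).natAbs = q ^ (2 * h) := by
      have := congrArg Int.natAbs hN2
      rwa [Int.natAbs_mul, Int.natAbs_pow, Int.natAbs_natCast] at this
    have h2 : (Algebra.norm ℤ J).natAbs ^ 2 = (q ^ h) ^ 2 := by
      rw [pow_two, h1, ← pow_mul, mul_comm]
    exact Nat.pow_left_injective (by norm_num : 2 ≠ 0) h2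
  have hA : Ideal.absNorm (Ideal.span {J}) = q ^ h := by
    rw [Ideal.absNorm_span_singleton, hN3]
  have hqQ : Ideal.absNorm Q = q := by
    rw [Ideal.absNorm_apply, Submodule.cardQuot_apply]
    exact hcard
  set P : ℕ → Ideal (𝓞 K) := fun t => Q.comap (σ t : 𝓞 K →+* 𝓞 K) with hP
  have hPmax : ∀ t, (P t).IsMaximal := fun t => Ideal.comap_isMaximal_of_equiv (σ t)
  have hB : Ideal.absNorm (∏ t ∈ Finset.Icc 1 h, P t) = q ^ h := by
    rw [map_prod]
    have : ∀ t ∈ Finset.Icc 1 h, Ideal.absNorm (P t) = q := fun t _ => by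
      rw [hP]
      simp only
      rw [absNorm_comap, hqQ]
    rw [Finset.prod_congr rfl this, Finset.prod_const, Nat.card_Icc, Nat.add_sub_cancel]
  -- the product divides `(J)`
  have hdvd : (∏ t ∈ Finset.Icc 1 h, P t) ∣ Ideal.span {J} := by
    refine Finset.prod_dvd_of_coprime ?_ ?_
    · intro s hs t ht hst
      have hs' := Finset.mem_Icc.mp (Finset.mem_coe.mp hs)
      have ht' := Finset.mem_Icc.mp (Finset.mem_coe.mp ht)
      have := hPmax s
      have := hPmax t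
      refine Ideal.isCoprime_of_isMaximal ?_
      rcases Nat.lt_or_gt_of_ne hst with hlt | hlt
      · exact comap_ne_comap Q hp hq hqp hcard hζ _ _ hlt (by omega)
          (hσ s (by omega) (by omega)) (hσ t (by omega) (by omega))
      · exact (comap_ne_comap Q hp hq hqp hcard hζ _ _ hlt (by omega)
          (hσ t (by omega) (by omega)) (hσ s (by omega) (by omega))).symm
    · intro t ht
      have ht' := Finset.mem_Icc.mp ht
      rw [Ideal.dvd_iff_le, Ideal.span_singleton_le_iff_mem, hP]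
      simp only
      rw [Ideal.mem_comap]
      exact hmem (σ t : 𝓞 K →+* 𝓞 K) t (by omega) (by omega) (hσ t (by omega) (by omega))
  obtain ⟨C, hC⟩ := hdvd
  have hqh : q ^ h ≠ 0 := pow_ne_zero _ hq.ne_zero
  have hCtop : C = ⊤ := by
    have h1 := congrArg Ideal.absNorm hC
    rw [map_mul, hA, hB] at h1
    have h2 : Ideal.absNorm C = 1 := by
      have h3 : q ^ h * Ideal.absNorm C = q ^ h * 1 := by rw [mul_one]; exact h1.symm
      exact Nat.eq_of_mul_eq_mul_left (Nat.pos_of_ne_zero hqh) h3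
    exact Ideal.absNorm_eq_one_iff.mp h2
  refine ⟨J, ?_, ?_⟩
  · rintro rfl
    rw [Ideal.span_singleton_eq_bot.mpr rfl, Ideal.absNorm_bot] at hA
    exact hqh hA.symm
  · rw [hhalf, hC, hCtop, Ideal.mul_top]

end Main

end Fermat.Agent.S14x.Stk.H7
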