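import Mathlib

/-!
# S14 / STK (helper7): power sums over a finite field

`∑_{x ∈ F} x^a (1 - x)^b = 0` whenever `a + b < #F - 1`.
-/

set_option autoImplicit false

namespace Fermat.Agent.S14x.Stk.H7

open Finset

/-- `∑_{x ∈ F} x^a (1 - x)^b = 0` for `a + b < #F - 1`. -/
theorem sum_pow_mul_one_sub_pow {F : Type*} [Field F] [Fintype F] (a b : ℕ)
    (h : a + b < Fintype.card F - 1) : ∑ x : F, x ^ a * (1 - x) ^ b = 0 := by
  have hexp : ∀ x : F, x ^ a * (1 - x) ^ b =
      ∑ m ∈ range (b + 1), ((-1 : F) ^ m * (b.choose m : F)) * x ^ (a + m) := by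
    intro x
    have h1 : (1 - x) ^ b = ∑ m ∈ range (b + 1), (-x) ^ m * 1 ^ (b - m) * (b.choose m : F) := by
      rw [← add_pow, neg_add_eq_sub]
    rw [h1, Finset.mul_sum]
    refine Finset.sum_congr rfl fun m _ => ?_
    rw [one_pow, mul_one, neg_pow, pow_add]
    ring
  simp_rw [hexp]
  rw [Finset.sum_comm]
  refine Finset.sum_eq_zero fun m hm => ?_
  rw [← Finset.mul_sum]
  have hm' : m ≤ b := Nat.lt_succ_iff.mp (Finset.mem_range.mp hm)
  rw [FiniteField.sum_pow_lt_card_sub_one F (a + m) (by omega), mul_zero]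

end Fermat.Agent.S14x.Stk.H7
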